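/-
S51 part A, common infrastructure (helper12).

* `S51_c_IsX P x`      : `P` is an affine point with `X`-coordinate `x`  (+ API: neg, unique, eq_or_eq_neg, ...)
* doubling             : `S51_c_IsX.add_self_eq_zero_iff`, `S51_c_IsX.add_self`, `S51_c_IsX.add_self_mul`
* Galois               : `S51_c_isX_smul` (σ • P has X-coordinate σ x), `S51_c_exists_rat_of_fixed`
* linear algebra       : `S51_c_line` (proper nonzero submodule of a ZMod p-module of card < p^3 is a line)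
* existence of points  : `S51_c_exists_isX` (alg. closed field, Δ ≠ 0)
-/
import Mathlib
import Fermat.Prelude.Def_FLTPrelim_GaloisRep

set_option autoImplicit false

open WeierstrassCurve Polynomial

namespace Fermat.Agent.S51

section Basic

variable {F : Type*} [Field F] {W : WeierstrassCurve.Affine F}

/-- `S51_c_IsX P x` : `P` is an affine point with `X`-coordinate `x`. -/
def S51_c_IsX (P : W.Point) (x : F) : Prop := ∃ y h, P = Affine.Point.some x y h

lemma S51_c_IsX.ne_zero {P : W.Point} {x : F} (h : S51_c_IsX P x) : P ≠ 0 := by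
  obtain ⟨y, hy, rfl⟩ := h
  exact Affine.Point.some_ne_zero hy

lemma S51_c_IsX.neg {P : W.Point} {x : F} (h : S51_c_IsX P x) : S51_c_IsX (-P) x := by
  obtain ⟨y, hy, rfl⟩ := h
  exact ⟨_, _, Affine.Point.neg_some hy⟩

lemma S51_c_isX_neg_iff {P : W.Point} {x : F} : S51_c_IsX (-P) x ↔ S51_c_IsX P x :=
  ⟨fun h => by simpa using h.neg, S51_c_IsX.neg⟩

lemma S51_c_IsX.unique {P : W.Point} {x x' : F} (h : S51_c_IsX P x) (h' : S51_c_IsX P x') :
    x = x' := by
  obtain ⟨y, hy, rfl⟩ := h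
  obtain ⟨y', hy', h⟩ := h'
  simp only [Affine.Point.some.injEq] at h
  exact h.1

/-- same `X`-coordinate ⇒ equal or opposite. -/
lemma S51_c_IsX.eq_or_eq_neg {P Q : W.Point} {x : F} (hP : S51_c_IsX P x) (hQ : S51_c_IsX Q x) :
    P = Q ∨ P = -Q := by
  obtain ⟨y, hy, rfl⟩ := hP
  obtain ⟨y', hy', rfl⟩ := hQ
  exact Affine.Point.X_eq_iff.mp rfl

lemma S51_c_exists_isX_of_ne_zero {P : W.Point} (hP : P ≠ 0) : ∃ x, S51_c_IsX P x := by
  rcases P with _ | ⟨x, y, h⟩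
  · exact absurd rfl hP
  · exact ⟨x, y, h, rfl⟩

lemma S51_c_isX_of_eq_or_eq_neg {P Q : W.Point} {x : F} (hQ : S51_c_IsX Q x)
    (h : P = Q ∨ P = -Q) : S51_c_IsX P x := by
  rcases h with rfl | rfl
  · exact hQ
  · exact hQ.neg

/-- the value of `Ψ₂Sq` at the `X`-coordinate of an affine point is `(y - negY)^2`. -/
lemma S51_c_eval_Ψ₂Sq_eq {x y : F} (h : W.Equation x y) :
    W.Ψ₂Sq.eval x = (y - W.negY x y) ^ 2 := by
  rw [Affine.equation_iff] at h
  simp only [Ψ₂Sq, Affine.negY, b₂, b₄, b₆, eval_add, eval_mul, eval_pow, eval_C, eval_X]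
  linear_combination (-4) * h

lemma S51_c_eval_Ψ₂Sq_eq_zero_iff {x y : F} (h : W.Equation x y) :
    W.Ψ₂Sq.eval x = 0 ↔ y = W.negY x y := by
  rw [S51_c_eval_Ψ₂Sq_eq h, sq_eq_zero_iff, sub_eq_zero]

/-- every `x` is the `X`-coordinate of a point, over an algebraically closed field, if `Δ ≠ 0`. -/
lemma S51_c_exists_isX [IsAlgClosed F] (hΔ : W.Δ ≠ 0) (x : F) : ∃ P : W.Point, S51_c_IsX P x := by
  obtain ⟨y, hy⟩ := IsAlgClosed.exists_root
    (X ^ 2 + C (W.a₁ * x + W.a₃) * X - C (x ^ 3 + W.a₂ * x ^ 2 + W.a₄ * x + W.a₆) : F[X])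
    (by
      have : (X ^ 2 + C (W.a₁ * x + W.a₃) * X - C (x ^ 3 + W.a₂ * x ^ 2 + W.a₄ * x + W.a₆) :
          F[X]).degree = 2 := by compute_degree!
      rw [this]; norm_num)
  have heq : W.Equation x y := by
    rw [Affine.equation_iff]
    simp only [IsRoot.def, eval_sub, eval_add, eval_mul, eval_pow, eval_C, eval_X] at hy
    linear_combination hy
  exact ⟨Affine.Point.some x y ((Affine.equation_iff_nonsingular_of_Δ_ne_zero hΔ).mp heq), y, _, rfl⟩

variable [DecidableEq F]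

/-- doubling formula for the `X`-coordinate. -/
lemma S51_c_addX_self_mul_eval_Ψ₂Sq {x y : F} (h : W.Equation x y) (hy : y ≠ W.negY x y) :
    W.addX x x (W.slope x x y y) * W.Ψ₂Sq.eval x = (W.Φ 2).eval x := by
  rw [Affine.slope_of_Y_ne rfl hy, S51_c_eval_Ψ₂Sq_eq h]
  have hy' : y - W.negY x y ≠ 0 := sub_ne_zero.mpr hy
  rw [Affine.equation_iff] at h
  simp only [Affine.addX, Φ_two, b₄, b₆, b₈, eval_sub, eval_mul, eval_pow, eval_C,
    eval_X]
  have key : ∀ (n d : F), d ≠ 0 →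
      ((n / d) ^ 2 + W.a₁ * (n / d) - W.a₂ - x - x) * d ^ 2 =
        n ^ 2 + W.a₁ * n * d - (W.a₂ + 2 * x) * d ^ 2 := by
    intro n d hd
    field_simp
    ring
  rw [key _ _ hy']
  simp only [Affine.negY]
  linear_combination (-(W.a₁ ^ 2 + 4 * W.a₂ + 8 * x)) * h

/-- `2P = 0 ↔ Ψ₂Sq(x(P)) = 0`. -/
lemma S51_c_IsX.add_self_eq_zero_iff {P : W.Point} {x : F} (hP : S51_c_IsX P x) :
    P + P = 0 ↔ W.Ψ₂Sq.eval x = 0 := by
  obtain ⟨y, hy, rfl⟩ := hP
  rw [S51_c_eval_Ψ₂Sq_eq_zero_iff hy.1]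
  constructor
  · intro h
    by_contra hne
    rw [Affine.Point.add_self_of_Y_ne hne] at h
    exact Affine.Point.some_ne_zero _ h
  · intro h
    exact Affine.Point.add_self_of_Y_eq h

/-- doubling: if `Ψ₂Sq(x(P)) ≠ 0` then `2P` is affine with `X`-coordinate `Φ₂(x)/Ψ₂Sq(x)`. -/
lemma S51_c_IsX.add_self {P : W.Point} {x : F} (hP : S51_c_IsX P x) (hx : W.Ψ₂Sq.eval x ≠ 0) :
    S51_c_IsX (P + P) ((W.Φ 2).eval x / W.Ψ₂Sq.eval x) := by
  obtain ⟨y, hy, rfl⟩ := hP
  have hne : y ≠ W.negY x y := fun h => hx ((S51_c_eval_Ψ₂Sq_eq_zero_iff hy.1).mpr h)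
  have hX : (W.Φ 2).eval x / W.Ψ₂Sq.eval x = W.addX x x (W.slope x x y y) :=
    div_eq_of_eq_mul hx (S51_c_addX_self_mul_eval_Ψ₂Sq hy.1 hne).symm
  rw [Affine.Point.add_self_of_Y_ne hne, hX]
  exact ⟨_, _, rfl⟩

/-- doubling formula, multiplicative form: `x(2P) · Ψ₂Sq(x(P)) = Φ₂(x(P))`. -/
lemma S51_c_IsX.add_self_mul {P : W.Point} {x x₂ : F} (hP : S51_c_IsX P x)
    (h2 : S51_c_IsX (P + P) x₂) : x₂ * W.Ψ₂Sq.eval x = (W.Φ 2).eval x := by
  have hx : W.Ψ₂Sq.eval x ≠ 0 := fun h => h2.ne_zero (hP.add_self_eq_zero_iff.mpr h)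
  have := (hP.add_self hx).unique h2
  rw [← this, div_mul_cancel₀ _ hx]

/-- if `2P ≠ 0` (and `P ≠ 0`) then `2P` has an `X`-coordinate `x₂` with `x₂ Ψ₂Sq(x) = Φ₂(x)`. -/
lemma S51_c_IsX.exists_add_self {P : W.Point} {x : F} (hP : S51_c_IsX P x) (h2 : P + P ≠ 0) :
    ∃ x₂, S51_c_IsX (P + P) x₂ ∧ W.Ψ₂Sq.eval x ≠ 0 ∧ x₂ * W.Ψ₂Sq.eval x = (W.Φ 2).eval x := by
  have hx : W.Ψ₂Sq.eval x ≠ 0 := fun h => h2 (hP.add_self_eq_zero_iff.mpr h)
  exact ⟨_, hP.add_self hx, hx, hP.add_self_mul (hP.add_self hx)⟩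

end Basic

section Galois

open WeierstrassCurve.Affine WeierstrassCurve.Affine.Point

variable {R : Type*} {S : Type*} {K : Type*} [CommRing R] [CommRing S] [Field K]
  [DecidableEq K] {W' : WeierstrassCurve.Affine R} [Algebra R S] [Algebra R K] [Algebra S K]
  [IsScalarTower R S K]

lemma S51_c_smul_some (σ : K ≃ₐ[S] K) {x y : K} (h : (W'⁄K).Nonsingular x y) :
    σ • (Affine.Point.some x y h : (W'⁄K).Point) =
      Affine.Point.some (σ x) (σ y)
        ((W'.baseChange_nonsingular (σ : K →ₐ[S] K).injective ..).mpr h) :=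
  rfl

lemma S51_c_smul_zero (σ : K ≃ₐ[S] K) : σ • (0 : (W'⁄K).Point) = 0 :=
  rfl

/-- the `X`-coordinate commutes with the Galois action. -/
lemma S51_c_isX_smul (σ : K ≃ₐ[S] K) {P : (W'⁄K).Point} {x : K} (h : S51_c_IsX P x) :
    S51_c_IsX (σ • P) (σ x) := by
  obtain ⟨y, hy, rfl⟩ := h
  exact ⟨σ y, _, S51_c_smul_some σ hy⟩

lemma S51_c_smul_eq_zero_iff (σ : K ≃ₐ[S] K) {P : (W'⁄K).Point} : σ • P = 0 ↔ P = 0 := by
  constructor
  · intro h
    by_contra hP
    obtain ⟨x, hx⟩ := S51_c_exists_isX_of_ne_zero hP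
    exact (S51_c_isX_smul σ hx).ne_zero h
  · rintro rfl
    rfl

lemma S51_c_smul_add (σ : K ≃ₐ[S] K) (P Q : (W'⁄K).Point) : σ • (P + Q) = σ • P + σ • Q :=
  smul_add σ P Q

lemma S51_c_smul_neg (σ : K ≃ₐ[S] K) (P : (W'⁄K).Point) : σ • (-P) = -(σ • P) :=
  smul_neg σ P

lemma S51_c_smul_nsmul (σ : K ≃ₐ[S] K) (n : ℕ) (P : (W'⁄K).Point) : σ • (n • P) = n • (σ • P) := by
  have := algEquiv_smul_zsmul σ (n : ℤ) P
  simpa using this

/-- coercion of the action on the torsion submodule. -/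
lemma S51_c_coe_smul_torsionBy (n : ℕ) (σ : K ≃ₐ[S] K)
    (x : Submodule.torsionBy ℤ (W'⁄K).Point n) :
    ((σ • x : Submodule.torsionBy ℤ (W'⁄K).Point n) : (W'⁄K).Point) = σ • (x : (W'⁄K).Point) :=
  rfl

/-- scalar multiplication by `ZMod n` on the `n`-torsion is the integer multiple. -/
lemma S51_c_coe_natCast_smul_torsionBy (n : ℕ) (k : ℕ)
    (x : Submodule.torsionBy ℤ (W'⁄K).Point n) :
    (((k : ZMod n) • x : Submodule.torsionBy ℤ (W'⁄K).Point n) : (W'⁄K).Point) =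
      k • (x : (W'⁄K).Point) := by
  rw [Nat.cast_smul_eq_nsmul]
  simp

end Galois

section Rational

/-- `ℚ̄/ℚ` is Galois, for the default (`DivisionRing.toRatAlgebra`) algebra structure
(instance search does not find this by itself: the `IsAlgClosure` instance is stated for
`AlgebraicClosure.instAlgebra`, which is only defeq at default transparency). -/
theorem S51_c_isGalois_rat : IsGalois ℚ (AlgebraicClosure ℚ) :=
  @IsAlgClosure.isGalois ℚ (AlgebraicClosure ℚ) _ _ (AlgebraicClosure.instAlgebra ℚ)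
    (AlgebraicClosure.instIsAlgClosure ℚ) _

theorem S51_c_isAlgClosure_rat : IsAlgClosure ℚ (AlgebraicClosure ℚ) :=
  AlgebraicClosure.instIsAlgClosure ℚ

/-- Galois-fixed elements of `ℚ̄` are rational. -/
lemma S51_c_exists_rat_of_fixed (a : AlgebraicClosure ℚ)
    (h : ∀ σ : AlgebraicClosure ℚ ≃ₐ[ℚ] AlgebraicClosure ℚ, σ a = a) :
    ∃ r : ℚ, algebraMap ℚ (AlgebraicClosure ℚ) r = a :=
  haveI := S51_c_isGalois_rat
  (InfiniteGalois.mem_range_algebraMap_iff_fixed a).mpr h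

end Rational

section LinearAlgebra

/-- In a `ZMod p`-module with fewer than `p^3` elements, a proper nonzero submodule is the line
through any of its nonzero elements. -/
lemma S51_c_line {p : ℕ} [Fact p.Prime] {V : Type*} [AddCommGroup V] [Module (ZMod p) V]
    [Finite V] (hV : Nat.card V < p ^ 3) (N : Submodule (ZMod p) V) (hbot : N ≠ ⊥) (htop : N ≠ ⊤)
    {P : V} (hP : P ∈ N) (hP0 : P ≠ 0) {Q : V} (hQ : Q ∈ N) :
    ∃ k : ℕ, k < p ∧ Q = (k : ZMod p) • P := by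
  have hp : p.Prime := Fact.out
  have : Module.Finite (ZMod p) V := Module.Finite.of_finite
  have hcard : Nat.card V = p ^ Module.finrank (ZMod p) V := by
    rw [Module.natCard_eq_pow_finrank (K := ZMod p) (V := V), Nat.card_zmod]
  have hfr : Module.finrank (ZMod p) V < 3 := by
    rw [hcard] at hV
    exact (Nat.pow_lt_pow_iff_right hp.one_lt).mp hV
  have hN1 : Module.finrank (ZMod p) N < Module.finrank (ZMod p) V :=
    Submodule.finrank_lt htop
  have hN0 : 0 < Module.finrank (ZMod p) N := by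
    rw [Module.finrank_pos_iff]
    exact (Submodule.nontrivial_iff_ne_bot).mpr hbot
  have hN : Module.finrank (ZMod p) N = 1 := by omega
  have hP' : (⟨P, hP⟩ : N) ≠ 0 := fun h => hP0 (congrArg Subtype.val h)
  obtain ⟨c, hc⟩ := (finrank_eq_one_iff_of_nonzero' (⟨P, hP⟩ : N) hP').mp hN ⟨Q, hQ⟩
  refine ⟨c.val, ZMod.val_lt c, ?_⟩
  have := congrArg Subtype.val hc
  simp only [Submodule.coe_smul] at this
  rw [ZMod.natCast_zmod_val]
  exact this.symm

end LinearAlgebra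

end Fermat.Agent.S51
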