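/-
S51, part A (helper26): polynomial identities behind the 3- and 5-torsion of a Weierstrass curve.
Everything is stated for the *values* of the division polynomials at a point `x` of a commutative
ring, so that no `Polynomial.eval` bookkeeping is needed.
-/
import Mathlib.AlgebraicGeometry.EllipticCurve.DivisionPolynomial.Basic
import Mathlib.AlgebraicGeometry.EllipticCurve.Affine.Point

namespace Fermat.Agent.S51

variable {R : Type*} [CommRing R] (W : WeierstrassCurve R)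

/-- `Ψ₂Sq` evaluated at `x`. -/
def S51_psi2sq (x : R) : R := 4 * x ^ 3 + W.b₂ * x ^ 2 + 2 * W.b₄ * x + W.b₆

/-- `Φ₂` evaluated at `x`. -/
def S51_phi2 (x : R) : R := x ^ 4 - W.b₄ * x ^ 2 - 2 * W.b₆ * x - W.b₈

/-- `Ψ₃` evaluated at `x`. -/
def S51_psi3 (x : R) : R :=
  3 * x ^ 4 + W.b₂ * x ^ 3 + 3 * W.b₄ * x ^ 2 + 3 * W.b₆ * x + W.b₈

/-- `preΨ₄` evaluated at `x`. -/
def S51_prepsi4 (x : R) : R :=
  2 * x ^ 6 + W.b₂ * x ^ 5 + 5 * W.b₄ * x ^ 4 + 10 * W.b₆ * x ^ 3 + 10 * W.b₈ * x ^ 2 +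
    (W.b₂ * W.b₈ - W.b₄ * W.b₆) * x + (W.b₄ * W.b₈ - W.b₆ ^ 2)

/-- `Ψ₅` evaluated at `x`. -/
def S51_psi5 (x : R) : R :=
  S51_prepsi4 W x * S51_psi2sq W x ^ 2 - S51_psi3 W x ^ 3

/-- homogenisation of `Ψ₂Sq` evaluated at `(u, v)`. -/
def S51_psi2sqH (u v : R) : R :=
  4 * u ^ 3 + W.b₂ * u ^ 2 * v + 2 * W.b₄ * u * v ^ 2 + W.b₆ * v ^ 3

/-- homogenisation of `Φ₂` evaluated at `(u, v)`. -/
def S51_phi2H (u v : R) : R :=
  u ^ 4 - W.b₄ * u ^ 2 * v ^ 2 - 2 * W.b₆ * u * v ^ 3 - W.b₈ * v ^ 4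

theorem S51_psi2sqH_mul (t v : R) : S51_psi2sqH W (t * v) v = S51_psi2sq W t * v ^ 3 := by
  simp only [S51_psi2sqH, S51_psi2sq]; ring

theorem S51_phi2H_mul (t v : R) : S51_phi2H W (t * v) v = S51_phi2 W t * v ^ 4 := by
  simp only [S51_phi2H, S51_phi2]; ring

theorem S51_phi2_sub (x : R) : S51_phi2 W x - x * S51_psi2sq W x = - S51_psi3 W x := by
  simp only [S51_phi2, S51_psi2sq, S51_psi3]; ring

theorem S51_psi2sq_eq {x y : R} (h : W.toAffine.Equation x y) :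
    S51_psi2sq W x = (y - W.toAffine.negY x y) ^ 2 := by
  rw [WeierstrassCurve.Affine.equation_iff] at h
  simp only [S51_psi2sq, WeierstrassCurve.Affine.negY, WeierstrassCurve.b₂, WeierstrassCurve.b₄,
    WeierstrassCurve.b₆]
  linear_combination (-4) * h

theorem S51_dbl_num {x y : R} (h : W.toAffine.Equation x y) :
    (3 * x ^ 2 + 2 * W.a₂ * x + W.a₄ - W.a₁ * y) ^ 2
      + W.a₁ * (3 * x ^ 2 + 2 * W.a₂ * x + W.a₄ - W.a₁ * y) * (y - W.toAffine.negY x y)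
      - (W.a₂ + 2 * x) * (y - W.toAffine.negY x y) ^ 2 = S51_phi2 W x := by
  rw [WeierstrassCurve.Affine.equation_iff] at h
  simp only [S51_phi2, WeierstrassCurve.Affine.negY, WeierstrassCurve.b₄,
    WeierstrassCurve.b₆, WeierstrassCurve.b₈]
  linear_combination (-(W.a₁ ^ 2 + 4 * W.a₂ + 8 * x)) * h

/-- `16 Ψ₃ = Ψ₂Sq · (2 Ψ₂Sq'') - (Ψ₂Sq')²`, with `Ψ₂Sq' = 2 a₁ ψ₂ - 4 ∂W/∂x`. -/
theorem S51_sixteen_psi3 (x y : R) :
    16 * S51_psi3 W x = S51_psi2sq W x * (48 * x + 4 * W.b₂)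
      - (2 * W.a₁ * (y - W.toAffine.negY x y)
          - 4 * (W.a₁ * y - (3 * x ^ 2 + 2 * W.a₂ * x + W.a₄))) ^ 2 := by
  simp only [S51_psi3, S51_psi2sq, WeierstrassCurve.Affine.negY, WeierstrassCurve.b₂,
    WeierstrassCurve.b₄, WeierstrassCurve.b₆, WeierstrassCurve.b₈]
  ring

theorem S51_prepsi4_sq (x : R) :
    S51_prepsi4 W x ^ 2 = S51_psi2sqH W (S51_phi2 W x) (S51_psi2sq W x) := by
  simp only [S51_psi2sqH, S51_phi2, S51_psi2sq, S51_prepsi4, WeierstrassCurve.b₂,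
    WeierstrassCurve.b₄, WeierstrassCurve.b₆, WeierstrassCurve.b₈]
  ring

set_option maxHeartbeats 8000000 in
theorem S51_quad_identity (x : R) :
    S51_phi2H W (S51_phi2 W x) (S51_psi2sq W x)
      - x * S51_psi2sq W x * S51_psi2sqH W (S51_phi2 W x) (S51_psi2sq W x)
      = - S51_psi3 W x * S51_psi5 W x := by
  simp only [S51_phi2H, S51_psi2sqH, S51_phi2, S51_psi2sq, S51_prepsi4, S51_psi3, S51_psi5,
    WeierstrassCurve.b₂, WeierstrassCurve.b₄, WeierstrassCurve.b₆, WeierstrassCurve.b₈]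
  ring

/-- helper14's relations: with `R₁ = x₂ Ψ₂Sq(x₁) - Φ₂(x₁)` and `R₂ = x₁ Ψ₂Sq(x₂) - Φ₂(x₂)`,
`R₁ - R₂ = (x₁ - x₂) S₁(σ, π)` and `R₁ + R₂ = S₂(σ, π)` for `σ = x₁ + x₂`, `π = x₁ x₂`. -/
theorem S51_R_sub (x₁ x₂ : R) :
    (x₂ * S51_psi2sq W x₁ - S51_phi2 W x₁) - (x₁ * S51_psi2sq W x₂ - S51_phi2 W x₂)
      = (x₁ - x₂) * (-(x₁ + x₂) ^ 3 + 6 * (x₁ * x₂) * (x₁ + x₂) + W.b₂ * (x₁ * x₂)
          + W.b₄ * (x₁ + x₂) + W.b₆) := by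
  simp only [S51_phi2, S51_psi2sq]; ring

theorem S51_R_add (x₁ x₂ : R) :
    (x₂ * S51_psi2sq W x₁ - S51_phi2 W x₁) + (x₁ * S51_psi2sq W x₂ - S51_phi2 W x₂)
      = -(x₁ + x₂) ^ 4 + 8 * (x₁ * x₂) * (x₁ + x₂) ^ 2 - 10 * (x₁ * x₂) ^ 2
          + W.b₂ * (x₁ * x₂) * (x₁ + x₂) + W.b₄ * (x₁ + x₂) ^ 2 + 2 * W.b₄ * (x₁ * x₂)
          + 3 * W.b₆ * (x₁ + x₂) + 2 * W.b₈ := by
  simp only [S51_phi2, S51_psi2sq]; ring

end Fermat.Agent.S51
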