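/-
S51, part A (helper26): 2-, 3- and 5-torsion points of a Weierstrass curve over a field,
characterised by the values of the division polynomials at the `x`-coordinate.
-/
import Fermat.Agent.S51.TorsPoly

namespace Fermat.Agent.S51

open WeierstrassCurve WeierstrassCurve.Affine

variable {K : Type*} [Field K] [DecidableEq K] {W : WeierstrassCurve.Affine K}

theorem S51_addX_self {x y : K} (h : W.Equation x y) (hy : y ≠ W.negY x y) :
    W.addX x x (W.slope x x y y) * S51_psi2sq W x = S51_phi2 W x := by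
  have hD : y - W.negY x y ≠ 0 := sub_ne_zero.mpr hy
  rw [S51_psi2sq_eq W h, WeierstrassCurve.Affine.slope_of_Y_ne rfl hy, ← S51_dbl_num W h]
  simp only [WeierstrassCurve.Affine.addX]
  field_simp
  ring

omit [DecidableEq K] in
theorem S51_psi2sq_eq_zero_iff {x y : K} (h : W.Equation x y) :
    S51_psi2sq W x = 0 ↔ y = W.negY x y := by
  rw [S51_psi2sq_eq W h, sq_eq_zero_iff, sub_eq_zero]

theorem S51_two_nsmul_eq_zero_iff {x y : K} (h : W.Nonsingular x y) :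
    (2 : ℕ) • (Point.some x y h) = 0 ↔ y = W.negY x y := by
  rw [two_nsmul]
  constructor
  · intro h0
    by_contra hy
    rw [Point.add_self_of_Y_ne hy] at h0
    exact Point.some_ne_zero _ h0
  · intro hy
    exact Point.add_self_of_Y_eq hy

theorem S51_two_nsmul_some {x y : K} (h : W.Nonsingular x y) (hy : y ≠ W.negY x y) :
    ∃ (x₂ y₂ : K) (h₂ : W.Nonsingular x₂ y₂),
      (2 : ℕ) • (Point.some x y h) = Point.some x₂ y₂ h₂ ∧
      x₂ * S51_psi2sq W x = S51_phi2 W x :=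
  ⟨_, _, _, (by rw [two_nsmul]; exact Point.add_self_of_Y_ne hy), S51_addX_self h.1 hy⟩

omit [DecidableEq K] in
/-- At a `2`-torsion point, `Ψ₃` does not vanish (characteristic `≠ 2`). -/
theorem S51_psi3_ne_zero_of_Y_eq (h2 : (2 : K) ≠ 0) {x y : K} (h : W.Nonsingular x y)
    (hy : y = W.negY x y) : S51_psi3 W x ≠ 0 := by
  have hX : W.a₁ * y - (3 * x ^ 2 + 2 * W.a₂ * x + W.a₄) ≠ 0 := by
    rcases (W.nonsingular_iff x y).mp h with ⟨-, h' | h'⟩
    · exact sub_ne_zero.mpr h'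
    · exact absurd hy h'
  have h0 : y - W.negY x y = 0 := sub_eq_zero.mpr hy
  have hs : S51_psi2sq W x = 0 := by rw [S51_psi2sq_eq W h.1, h0]; ring
  have key := S51_sixteen_psi3 W x y
  intro hpsi
  rw [hpsi, hs, h0] at key
  have h16 : (16 : K) ≠ 0 := by
    have : (16 : K) = 2 ^ 4 := by norm_num
    rw [this]; exact pow_ne_zero 4 h2
  have : (W.a₁ * y - (3 * x ^ 2 + 2 * W.a₂ * x + W.a₄)) ^ 2 = 0 := by
    have h3 : 16 * (W.a₁ * y - (3 * x ^ 2 + 2 * W.a₂ * x + W.a₄)) ^ 2 = 0 := by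
      linear_combination key
    exact (mul_eq_zero.mp h3).resolve_left h16
  exact hX (sq_eq_zero_iff.mp this)

omit [DecidableEq K] in
theorem S51_Y_ne_of_psi3 (h2 : (2 : K) ≠ 0) {x y : K} (h : W.Nonsingular x y)
    (hpsi : S51_psi3 W x = 0) : y ≠ W.negY x y :=
  fun hy => S51_psi3_ne_zero_of_Y_eq h2 h hy hpsi

/-- If `2P = (x₂, y₂)` has the same `x`-coordinate as `P ≠ 0`, then `3P = 0`. -/
theorem S51_three_nsmul_of_X_eq {x y x₂ y₂ : K} {h : W.Nonsingular x y}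
    {h₂ : W.Nonsingular x₂ y₂} (hdbl : (2 : ℕ) • (Point.some x y h) = Point.some x₂ y₂ h₂)
    (hx : x₂ = x) : (3 : ℕ) • (Point.some x y h) = 0 := by
  rcases (Point.X_eq_iff (h₁ := h₂) (h₂ := h)).mp hx with h' | h'
  · -- `2P = P` gives `P = 0`
    exfalso
    rw [← hdbl, two_nsmul] at h'
    exact Point.some_ne_zero h (add_eq_right.mp h')
  · rw [← hdbl] at h'
    have : (3 : ℕ) • (Point.some x y h) = (2 : ℕ) • (Point.some x y h) + Point.some x y h := by
      rw [succ_nsmul]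
    rw [this, h', neg_add_cancel]

theorem S51_three_torsion_psi3 {x y : K} (h : W.Nonsingular x y)
    (h3 : (3 : ℕ) • (Point.some x y h) = 0) : S51_psi3 W x = 0 := by
  have hy : y ≠ W.negY x y := by
    intro hy
    have h2 := (S51_two_nsmul_eq_zero_iff h).mpr hy
    have : (3 : ℕ) • (Point.some x y h) = (2 : ℕ) • (Point.some x y h) + Point.some x y h := by
      rw [succ_nsmul]
    rw [this, h2, zero_add] at h3
    exact Point.some_ne_zero h h3
  obtain ⟨x₂, y₂, h₂, hdbl, hx₂⟩ := S51_two_nsmul_some h hy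
  have hneg : Point.some x₂ y₂ h₂ = -Point.some x y h := by
    rw [← hdbl]
    have : (3 : ℕ) • (Point.some x y h) = (2 : ℕ) • (Point.some x y h) + Point.some x y h := by
      rw [succ_nsmul]
    rw [this] at h3
    exact eq_neg_of_add_eq_zero_left h3
  have hx : x₂ = x := Point.X_eq_iff.mpr (Or.inr hneg)
  have := S51_phi2_sub W x
  rw [← hx₂, hx, sub_self] at this
  exact neg_eq_zero.mp this.symm

theorem S51_three_torsion_of_psi3 (h2 : (2 : K) ≠ 0) {x y : K} (h : W.Nonsingular x y)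
    (hpsi : S51_psi3 W x = 0) : (3 : ℕ) • (Point.some x y h) = 0 := by
  have hy := S51_Y_ne_of_psi3 h2 h hpsi
  obtain ⟨x₂, y₂, h₂, hdbl, hx₂⟩ := S51_two_nsmul_some h hy
  have hs : S51_psi2sq W x ≠ 0 := fun h0 => hy ((S51_psi2sq_eq_zero_iff h.1).mp h0)
  have hx : x₂ = x := by
    have := S51_phi2_sub W x
    rw [hpsi, neg_zero, sub_eq_zero, ← hx₂] at this
    exact mul_right_cancel₀ hs this
  exact S51_three_nsmul_of_X_eq hdbl hx

/-! ### 5-torsion -/

/-- The data attached to a point `P = (x, y)` with `5P = 0`: `2P = (x₂, y₂)` with `x₂ ≠ x` and the two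
doubling relations `x₂ Ψ₂Sq(x) = Φ₂(x)`, `x Ψ₂Sq(x₂) = Φ₂(x₂)`. -/
theorem S51_five_torsion_data {x y : K} (h : W.Nonsingular x y)
    (h5 : (5 : ℕ) • (Point.some x y h) = 0) :
    ∃ (x₂ y₂ : K) (h₂ : W.Nonsingular x₂ y₂),
      (2 : ℕ) • (Point.some x y h) = Point.some x₂ y₂ h₂ ∧ x₂ ≠ x ∧
      x₂ * S51_psi2sq W x = S51_phi2 W x ∧ x * S51_psi2sq W x₂ = S51_phi2 W x₂ ∧
      S51_psi2sq W x ≠ 0 ∧ S51_psi2sq W x₂ ≠ 0 := by
  set P := Point.some x y h with hP
  have hP0 : P ≠ 0 := Point.some_ne_zero h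
  have h5' : (5 : ℕ) • P = (2 : ℕ) • ((2 : ℕ) • P) + P := by
    rw [← mul_nsmul, ← succ_nsmul]
  have h53 : (5 : ℕ) • P = (3 : ℕ) • P + (2 : ℕ) • P := by
    rw [← add_nsmul]
  have hy : y ≠ W.negY x y := by
    intro hy
    have h2 := (S51_two_nsmul_eq_zero_iff h).mpr hy
    rw [h5', h2, nsmul_zero, zero_add] at h5
    exact hP0 h5
  obtain ⟨x₂, y₂, h₂, hdbl, hx₂⟩ := S51_two_nsmul_some h hy
  have hxne : x₂ ≠ x := by
    intro hx
    have h3 := S51_three_nsmul_of_X_eq hdbl hx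
    rw [h53, h3, zero_add] at h5
    exact hy ((S51_two_nsmul_eq_zero_iff h).mp h5)
  have hy₂ : y₂ ≠ W.negY x₂ y₂ := by
    intro hy₂
    have h4 := (S51_two_nsmul_eq_zero_iff h₂).mpr hy₂
    rw [h5', hdbl, h4, zero_add] at h5
    exact hP0 h5
  obtain ⟨x₄, y₄, h₄, hdbl₂, hx₄⟩ := S51_two_nsmul_some h₂ hy₂
  have hneg : Point.some x₄ y₄ h₄ = -P := by
    rw [h5', hdbl, hdbl₂] at h5
    exact eq_neg_of_add_eq_zero_left h5
  have hx4 : x₄ = x := (Point.X_eq_iff (h₁ := h₄) (h₂ := h)).mpr (Or.inr hneg)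
  refine ⟨x₂, y₂, h₂, hdbl, hxne, hx₂, ?_, ?_, ?_⟩
  · rw [← hx4]; exact hx₄
  · exact fun h0 => hy ((S51_psi2sq_eq_zero_iff h.1).mp h0)
  · exact fun h0 => hy₂ ((S51_psi2sq_eq_zero_iff h₂.1).mp h0)

omit [DecidableEq K] in
/-- The two doubling relations force `Ψ₃(x) Ψ₅(x) = 0`. -/
theorem S51_psi3_mul_psi5_of_rel {x x₂ : K} (hx₂ : x₂ * S51_psi2sq W x = S51_phi2 W x)
    (hx : x * S51_psi2sq W x₂ = S51_phi2 W x₂) : S51_psi3 W x * S51_psi5 W x = 0 := by
  have key := S51_quad_identity W x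
  rw [← hx₂, S51_phi2H_mul, S51_psi2sqH_mul, ← hx] at key
  linear_combination key

omit [DecidableEq K] in
theorem S51_psi3_of_rel {x x₂ : K} (hx₂ : x₂ * S51_psi2sq W x = S51_phi2 W x) :
    S51_psi3 W x = (x - x₂) * S51_psi2sq W x := by
  have := S51_phi2_sub W x
  rw [← hx₂] at this
  linear_combination this

theorem S51_five_torsion_psi5 {x y : K} (h : W.Nonsingular x y)
    (h5 : (5 : ℕ) • (Point.some x y h) = 0) : S51_psi5 W x = 0 := by
  obtain ⟨x₂, y₂, h₂, -, hxne, hx₂, hx, hs, -⟩ := S51_five_torsion_data h h5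
  have h35 := S51_psi3_mul_psi5_of_rel hx₂ hx
  have h3 : S51_psi3 W x ≠ 0 := by
    rw [S51_psi3_of_rel hx₂]
    exact mul_ne_zero (sub_ne_zero.mpr (Ne.symm hxne)) hs
  exact (mul_eq_zero.mp h35).resolve_left h3

theorem S51_five_torsion_of_psi5 (h2 : (2 : K) ≠ 0) {x y : K} (h : W.Nonsingular x y)
    (hpsi : S51_psi5 W x = 0) : (5 : ℕ) • (Point.some x y h) = 0 := by
  set P := Point.some x y h with hP
  have hpsi' : S51_prepsi4 W x * S51_psi2sq W x ^ 2 = S51_psi3 W x ^ 3 := by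
    have := hpsi; unfold S51_psi5 at this; linear_combination this
  -- A : `Ψ₂Sq(x) ≠ 0`
  have hs : S51_psi2sq W x ≠ 0 := by
    intro hs
    have hy := (S51_psi2sq_eq_zero_iff h.1).mp hs
    have h3 := S51_psi3_ne_zero_of_Y_eq h2 h hy
    rw [hs] at hpsi'
    exact h3 (eq_zero_of_pow_eq_zero (n := 3) (by rw [← hpsi']; ring))
  have hy : y ≠ W.negY x y := fun hy => hs ((S51_psi2sq_eq_zero_iff h.1).mpr hy)
  obtain ⟨x₂, y₂, h₂, hdbl, hx₂⟩ := S51_two_nsmul_some h hy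
  have hsq := S51_prepsi4_sq W x
  rw [← hx₂, S51_psi2sqH_mul] at hsq
  -- B : `Ψ₃(x) ≠ 0`
  have h3 : S51_psi3 W x ≠ 0 := by
    intro h3
    rw [h3] at hpsi'
    have h4 : S51_prepsi4 W x = 0 := by
      have : S51_prepsi4 W x * S51_psi2sq W x ^ 2 = 0 := by rw [hpsi']; ring
      exact (mul_eq_zero.mp this).resolve_right (pow_ne_zero 2 hs)
    have hxx : x₂ = x := by
      have := S51_psi3_of_rel hx₂
      rw [h3] at this
      have := (mul_eq_zero.mp this.symm).resolve_right hs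
      exact (sub_eq_zero.mp this).symm
    rw [h4, hxx] at hsq
    have : S51_psi2sq W x ^ 4 = 0 := by linear_combination -hsq
    exact hs (eq_zero_of_pow_eq_zero this)
  -- C : `preΨ₄(x) ≠ 0`
  have h4 : S51_prepsi4 W x ≠ 0 := by
    intro h4
    rw [h4, zero_mul] at hpsi'
    exact h3 (eq_zero_of_pow_eq_zero hpsi'.symm)
  have hs₂ : S51_psi2sq W x₂ ≠ 0 := by
    intro h0
    rw [h0, zero_mul] at hsq
    exact h4 (eq_zero_of_pow_eq_zero hsq)
  have hy₂ : y₂ ≠ W.negY x₂ y₂ := fun hy₂ => hs₂ ((S51_psi2sq_eq_zero_iff h₂.1).mpr hy₂)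
  obtain ⟨x₄, y₄, h₄, hdbl₂, hx₄⟩ := S51_two_nsmul_some h₂ hy₂
  have key := S51_quad_identity W x
  rw [hpsi, mul_zero, ← hx₂, S51_phi2H_mul, S51_psi2sqH_mul] at key
  have hrel : S51_phi2 W x₂ = x * S51_psi2sq W x₂ := by
    have : S51_psi2sq W x ^ 4 * (S51_phi2 W x₂ - x * S51_psi2sq W x₂) = 0 := by
      linear_combination key
    exact sub_eq_zero.mp ((mul_eq_zero.mp this).resolve_left (pow_ne_zero 4 hs))
  have hx4 : x₄ = x := by
    rw [hrel] at hx₄
    exact mul_right_cancel₀ hs₂ hx₄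
  have h4P : (4 : ℕ) • P = Point.some x₄ y₄ h₄ := by
    rw [show (4 : ℕ) = 2 * 2 from rfl, mul_nsmul, hdbl, hdbl₂]
  rcases (Point.X_eq_iff (h₁ := h₄) (h₂ := h)).mp hx4 with h' | h'
  · -- `4P = P` gives `3P = 0`, hence `Ψ₃(x) = 0`
    exfalso
    rw [← h4P] at h'
    have h3P : (3 : ℕ) • P = 0 := by
      have : (4 : ℕ) • P = (3 : ℕ) • P + P := by rw [succ_nsmul]
      rw [this] at h'
      exact add_eq_right.mp h'
    exact h3 (S51_three_torsion_psi3 h h3P)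
  · rw [← h4P] at h'
    have : (5 : ℕ) • P = (4 : ℕ) • P + P := by rw [succ_nsmul]
    rw [this, h', neg_add_cancel]

end Fermat.Agent.S51
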