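/-
S51, part A (helper26): counting 3- and 5-torsion points, and existence over an algebraically
closed field.
-/
import Fermat.Agent.S51.TorsPoint
import Mathlib.AlgebraicGeometry.EllipticCurve.DivisionPolynomial.Degree
import Mathlib.FieldTheory.IsAlgClosed.Basic

namespace Fermat.Agent.S51

open WeierstrassCurve WeierstrassCurve.Affine Polynomial

variable {K : Type*} [Field K] [DecidableEq K] {W : WeierstrassCurve.Affine K}

omit [DecidableEq K] in
theorem S51_eval_Ψ₃ (x : K) : (W.Ψ₃).eval x = S51_psi3 W x := by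
  simp [WeierstrassCurve.Ψ₃, S51_psi3]

omit [DecidableEq K] in
theorem S51_eval_Ψ₂Sq (x : K) : (W.Ψ₂Sq).eval x = S51_psi2sq W x := by
  simp [WeierstrassCurve.Ψ₂Sq, S51_psi2sq]

omit [DecidableEq K] in
theorem S51_eval_preΨ₄ (x : K) : (W.preΨ₄).eval x = S51_prepsi4 W x := by
  simp [WeierstrassCurve.preΨ₄, S51_prepsi4]

omit [DecidableEq K] in
theorem S51_preΨ'_five : W.preΨ' 5 = W.preΨ₄ * W.Ψ₂Sq ^ 2 - W.Ψ₃ ^ 3 := by
  have := W.preΨ'_odd 0
  simpa using this

omit [DecidableEq K] in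
theorem S51_eval_preΨ'_five (x : K) : (W.preΨ' 5).eval x = S51_psi5 W x := by
  rw [S51_preΨ'_five]
  simp [S51_psi5, S51_eval_Ψ₃, S51_eval_Ψ₂Sq, S51_eval_preΨ₄]

/-- the (at most two) points with a given `x`-coordinate -/
noncomputable def S51_fibre (W : WeierstrassCurve.Affine K) (x : K) : Finset W.Point :=
  open Classical in
  if hx : ∃ y, W.Nonsingular x y then
    {Point.some x hx.choose hx.choose_spec, -Point.some x hx.choose hx.choose_spec}
  else ∅

theorem S51_mem_fibre {x y : K} (h : W.Nonsingular x y) : Point.some x y h ∈ S51_fibre W x := by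
  have hx : ∃ y, W.Nonsingular x y := ⟨y, h⟩
  unfold S51_fibre
  rw [dif_pos hx]
  rcases (Point.X_eq_iff (h₁ := h) (h₂ := hx.choose_spec)).mp rfl with h' | h'
  · rw [h']; exact Finset.mem_insert_self _ _
  · rw [h']; exact Finset.mem_insert_of_mem (Finset.mem_singleton_self _)

theorem S51_card_fibre_le (x : K) : (S51_fibre W x).card ≤ 2 := by
  unfold S51_fibre
  split_ifs
  · exact Finset.card_le_two
  · simp

/-- A set of points all of whose nonzero members have `x`-coordinate in a finite set `S` is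
finite of cardinality at most `1 + 2 |S|`. -/
theorem S51_finite_of_X_mem (A : Set W.Point) (S : Finset K)
    (hA : ∀ x y (h : W.Nonsingular x y), Point.some x y h ∈ A → x ∈ S) :
    A.Finite ∧ A.ncard ≤ 1 + 2 * S.card := by
  have hsub : A ⊆ ↑(insert (0 : W.Point) (S.biUnion (S51_fibre W))) := by
    rintro (_ | ⟨x, y, h⟩) hP
    · exact Finset.mem_coe.mpr (Finset.mem_insert_self _ _)
    · refine Finset.mem_coe.mpr (Finset.mem_insert_of_mem ?_)
      exact Finset.mem_biUnion.mpr ⟨x, hA x y h hP, S51_mem_fibre h⟩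
  refine ⟨(Finset.finite_toSet _).subset hsub, ?_⟩
  calc A.ncard ≤ (↑(insert (0 : W.Point) (S.biUnion (S51_fibre W))) : Set W.Point).ncard :=
        Set.ncard_le_ncard hsub (Finset.finite_toSet _)
    _ = (insert (0 : W.Point) (S.biUnion (S51_fibre W))).card := Set.ncard_coe_finset _
    _ ≤ (S.biUnion (S51_fibre W)).card + 1 := Finset.card_insert_le _ _
    _ ≤ S.card * 2 + 1 := by
        have := Finset.card_biUnion_le_card_mul S (S51_fibre W) 2 (fun x _ => S51_card_fibre_le x)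
        omega
    _ = 1 + 2 * S.card := by ring

theorem S51_three_torsion_finite (h3 : (3 : K) ≠ 0) :
    {P : W.Point | (3 : ℕ) • P = 0}.Finite ∧ {P : W.Point | (3 : ℕ) • P = 0}.ncard ≤ 9 := by
  have hne : W.Ψ₃ ≠ 0 := W.Ψ₃_ne_zero h3
  have := S51_finite_of_X_mem {P : W.Point | (3 : ℕ) • P = 0} W.Ψ₃.roots.toFinset
    (fun x y h hP => by
      rw [Multiset.mem_toFinset, mem_roots hne, IsRoot.def, S51_eval_Ψ₃]
      exact S51_three_torsion_psi3 h hP)
  refine ⟨this.1, this.2.trans ?_⟩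
  have hc : W.Ψ₃.roots.toFinset.card ≤ 4 :=
    (Multiset.toFinset_card_le _).trans ((card_roots' _).trans W.natDegree_Ψ₃_le)
  omega

theorem S51_five_torsion_finite (h5 : (5 : K) ≠ 0) :
    {P : W.Point | (5 : ℕ) • P = 0}.Finite ∧ {P : W.Point | (5 : ℕ) • P = 0}.ncard ≤ 25 := by
  have h5' : ((5 : ℕ) : K) ≠ 0 := by exact_mod_cast h5
  have hne : W.preΨ' 5 ≠ 0 := W.preΨ'_ne_zero h5'
  have := S51_finite_of_X_mem {P : W.Point | (5 : ℕ) • P = 0} (W.preΨ' 5).roots.toFinset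
    (fun x y h hP => by
      rw [Multiset.mem_toFinset, mem_roots hne, IsRoot.def, S51_eval_preΨ'_five]
      exact S51_five_torsion_psi5 h hP)
  refine ⟨this.1, this.2.trans ?_⟩
  have hc : (W.preΨ' 5).roots.toFinset.card ≤ 12 := by
    refine (Multiset.toFinset_card_le _).trans ((card_roots' _).trans ?_)
    have := W.natDegree_preΨ'_le 5
    rw [if_neg (by decide : ¬ Even 5)] at this
    exact this
  omega

/-! ### existence over an algebraically closed field -/

omit [DecidableEq K] in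
theorem S51_exists_Y [IsAlgClosed K] (hΔ : W.Δ ≠ 0) (x : K) : ∃ y, W.Nonsingular x y := by
  obtain ⟨y, hy⟩ := IsAlgClosed.exists_root
    (X ^ 2 + C (W.a₁ * x + W.a₃) * X - C (x ^ 3 + W.a₂ * x ^ 2 + W.a₄ * x + W.a₆) : K[X])
    (by
      have : (X ^ 2 + C (W.a₁ * x + W.a₃) * X - C (x ^ 3 + W.a₂ * x ^ 2 + W.a₄ * x + W.a₆)
          : K[X]).degree = 2 := by
        compute_degree!
      rw [this]; norm_num)
  refine ⟨y, (W.equation_iff_nonsingular_of_Δ_ne_zero hΔ).mp ?_⟩
  rw [WeierstrassCurve.Affine.equation_iff]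
  simp only [IsRoot.def, eval_sub, eval_add, eval_pow, eval_X, eval_mul, eval_C] at hy
  linear_combination hy

theorem S51_exists_three_torsion [IsAlgClosed K] (hΔ : W.Δ ≠ 0) (h2 : (2 : K) ≠ 0)
    (h3 : (3 : K) ≠ 0) : ∃ P : W.Point, P ≠ 0 ∧ (3 : ℕ) • P = 0 := by
  obtain ⟨x, hx⟩ := IsAlgClosed.exists_root W.Ψ₃ (by
    rw [degree_eq_natDegree (W.Ψ₃_ne_zero h3), W.natDegree_Ψ₃ h3]; norm_num)
  obtain ⟨y, hy⟩ := S51_exists_Y hΔ x
  rw [IsRoot.def, S51_eval_Ψ₃] at hx
  exact ⟨Point.some x y hy, Point.some_ne_zero hy, S51_three_torsion_of_psi3 h2 hy hx⟩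

theorem S51_exists_five_torsion [IsAlgClosed K] (hΔ : W.Δ ≠ 0) (h2 : (2 : K) ≠ 0)
    (h5 : (5 : K) ≠ 0) : ∃ P : W.Point, P ≠ 0 ∧ (5 : ℕ) • P = 0 := by
  have h5' : ((5 : ℕ) : K) ≠ 0 := by exact_mod_cast h5
  obtain ⟨x, hx⟩ := IsAlgClosed.exists_root (W.preΨ' 5) (by
    rw [degree_eq_natDegree (W.preΨ'_ne_zero h5'), W.natDegree_preΨ' h5',
      if_neg (by decide : ¬ Even 5)]; norm_num)
  obtain ⟨y, hy⟩ := S51_exists_Y hΔ x
  rw [IsRoot.def, S51_eval_preΨ'_five] at hx
  exact ⟨Point.some x y hy, Point.some_ne_zero hy, S51_five_torsion_of_psi5 h2 hy hx⟩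

end Fermat.Agent.S51
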