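import Mathlib

namespace Fermat.Agent.S51

section Core

variable {K : Type*} [Field K]

/-- `Δ` vanishes if `Ψ₂Sq` and `Ψ₃` have a common root. -/
theorem S51_delta_eq_zero_of_common_root (b₂ b₄ b₆ b₈ x : K)
    (hrel : 4*b₈ = b₂*b₆ - b₄^2)
    (h6 : 4*x^3 + b₂*x^2 + 2*b₄*x + b₆ = 0)
    (h8 : 3*x^4 + b₂*x^3 + 3*b₄*x^2 + 3*b₆*x + b₈ = 0) :
    -b₂^2*b₈ - 8*b₄^3 - 27*b₆^2 + 9*b₂*b₄*b₆ = 0 := by
  linear_combination (-2*b₂*x - 8*b₄ - 12*x^2) * hrel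
    + ((b₂ + 12*x)*(b₄ + x*b₂ + 6*x^2) - 27*(4*x^3 + b₂*x^2 + 2*b₄*x + b₆)) * h6
    + (32*(b₄ + x*b₂ + 6*x^2) - (b₂ + 12*x)^2) * h8

/-- Tate normal form for a point of order 5 placed at `x = 0` (in terms of the `b`-invariants). -/
theorem S51_normal_form (B₂ B₄ B₆ B₈ ρ : K) (hρ : ρ ≠ 0)
    (hrel : 4*B₈ = B₂*B₆ - B₄^2)
    (h1 : ρ*B₆ + B₈ = 0)
    (h2 : ρ^4 - B₄*ρ^2 - 2*B₆*ρ - B₈ = 0)
    (hB₆ : B₆ ≠ 0) :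
    ∃ L r : K, L ≠ 0 ∧ r ≠ 0 ∧ ρ = L*r ∧ B₂ = L*(r^2 - 6*r + 1) ∧ B₄ = L^2*(r^2 - r) ∧
      B₆ = L^3*r^2 ∧ B₈ = -L^4*r^3 := by
  have hB₈ : B₈ = -ρ*B₆ := by linear_combination h1
  have h3 : ρ * (ρ^3 - B₄*ρ - B₆) = 0 := by linear_combination h2 + h1
  have h4 : B₆ = ρ^3 - B₄*ρ := by
    rcases mul_eq_zero.mp h3 with h | h
    · exact absurd h hρ
    · linear_combination -h
  have h5 : B₂*B₆ = B₄^2 - 4*ρ*B₆ := by linear_combination -hrel + 4*hB₈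
  obtain ⟨L, hL⟩ : ∃ L : K, L = B₆/ρ^2 := ⟨_, rfl⟩
  obtain ⟨r, hr⟩ : ∃ r : K, r = ρ^3/B₆ := ⟨_, rfl⟩
  have hLne : L ≠ 0 := by rw [hL]; exact div_ne_zero hB₆ (pow_ne_zero _ hρ)
  have hrne : r ≠ 0 := by rw [hr]; exact div_ne_zero (pow_ne_zero _ hρ) hB₆
  have hLr : L * r = ρ := by rw [hL, hr]; field_simp
  have hLρ : L * ρ^2 = B₆ := by rw [hL]; field_simp
  have e6 : B₆ = L^3*r^2 := by rw [← hLρ, ← hLr]; ring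
  have e8 : B₈ = -L^4*r^3 := by rw [hB₈, e6, ← hLr]; ring
  have e4 : B₄ = L^2*(r^2 - r) := by
    apply mul_right_cancel₀ hρ
    have : B₄ * ρ = ρ^3 - B₆ := by linear_combination h4
    rw [this, e6, ← hLr]; ring
  have e2 : B₂ = L*(r^2 - 6*r + 1) := by
    apply mul_right_cancel₀ hB₆
    rw [h5, e4]
    rw [e6, ← hLr]; ring
  exact ⟨L, r, hLne, hrne, hLr.symm, e2, e4, e6, e8⟩


theorem S51_urel_key (r z : K)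
    (hP3 : 3*z^4 + (r^2 - 6*r + 1)*z^3 + 3*(r^2 - r)*z^2 + 3*r^2*z - r^3 = 0) :
    (-(r^2 - 11*r - 1) * z^3 * (z-r)^3)^3 * (r * (4*z^3 + (r^2 - 6*r + 1)*z^2 + 2*(r^2 - r)*z + r^2)^2) * (r^2 - 11*r - 1)^2
    + ((-(r^2 - 11*r - 1) * z^3 * (z-r)^3)^4 + 9*(-(r^2 - 11*r - 1) * z^3 * (z-r)^3)^3 * (r * (4*z^3 + (r^2 - 6*r + 1)*z^2 + 2*(r^2 - r)*z + r^2)^2)
       + 9*(-(r^2 - 11*r - 1) * z^3 * (z-r)^3) * (r * (4*z^3 + (r^2 - 6*r + 1)*z^2 + 2*(r^2 - r)*z + r^2)^2)^3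
       - (r * (4*z^3 + (r^2 - 6*r + 1)*z^2 + 2*(r^2 - r)*z + r^2)^2)^4) * (r^2 - 11*r - 1) * r
    + 125 * (-(r^2 - 11*r - 1) * z^3 * (z-r)^3) * (r * (4*z^3 + (r^2 - 6*r + 1)*z^2 + 2*(r^2 - r)*z + r^2)^2)^3 * r^2 = 0 := by
  linear_combination (-r^21*z^13 - 4*r^21*z^12 - 6*r^21*z^11 - 4*r^21*z^10 - r^21*z^9 + 26*r^20*z^13 + 74*r^20*z^12 + 230*r^20*z^11 + 1074*r^20*z^10 + 3170*r^20*z^9 + 5742*r^20*z^8 + 6985*r^20*z^7 + 6028*r^20*z^6 + 3774*r^20*z^5 + 1712*r^20*z^4 + 551*r^20*z^3 + 120*r^20*z^2 + 16*r^20*z + r^20 - 2*r^19*z^14 - 169*r^19*z^13 - 940*r^19*z^12 - 10672*r^19*z^11 - 47285*r^19*z^10 - 111132*r^19*z^9 - 165072*r^19*z^8 - 169251*r^19*z^7 - 125217*r^19*z^6 - 68081*r^19*z^5 - 27172*r^19*z^4 - 7806*r^19*z^3 - 1541*r^19*z^2 - 189*r^19*z - 11*r^19 - 9*r^18*z^15 - 188*r^18*z^14 + 359*r^18*z^13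 + 38408*r^18*z^12 + 280319*r^18*z^11 + 859594*r^18*z^10 + 1526178*r^18*z^9 + 1775736*r^18*z^8 + 1438984*r^18*z^7 + 834203*r^18*z^6 + 347167*r^18*z^5 + 101799*r^18*z^4 + 20057*r^18*z^3 + 2389*r^18*z^2 + 127*r^18*z - r^18 + 423*r^17*z^15 + 4331*r^17*z^14 - 63356*r^17*z^13 - 890434*r^17*z^12 - 3716562*r^17*z^11 - 7936132*r^17*z^10 - 10414212*r^17*z^9 - 9095421*r^17*z^8 - 5488766*r^17*z^7 - 2310087*r^17*z^6 - 667996*r^17*z^5 - 126683*r^17*z^4 - 14084*r^17*z^3 - 637*r^17*z^2 + 13*r^17*z - 105*r^16*z^16 - 7440*r^16*z^15 + 40224*r^16*z^14 + 1688508*r^16*z^13 + 10186060*r^16*z^12 + 26768171*r^16*z^11 + 39769971*r^16*z^10 + 37306702*r^16*z^9 + 23226742*r^16*z^8 + 9765203*r^16*z^7 + 2745726*r^16*z^6 + 493199*r^16*z^5 + 49906*r^16*z^4 + 1733*r^16*z^3 - 78*r^16*z^2 - 36*r^15*z^17 + 3313*r^15*z^16 + 9862*r^15*z^15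 - 1980348*r^15*z^14 - 18717341*r^15*z^13 - 62819818*r^15*z^12 - 106746327*r^15*z^11 - 107571249*r^15*z^10 - 68764141*r^15*z^9 - 28674917*r^15*z^8 - 7769638*r^15*z^7 - 1304377*r^15*z^6 - 116302*r^15*z^5 - 2323*r^15*z^4 + 286*r^15*z^3 + 9*r^14*z^18 + 708*r^14*z^17 - 16851*r^14*z^16 + 1431459*r^14*z^15 + 23543979*r^14*z^14 + 106270036*r^14*z^13 + 210271882*r^14*z^12 + 227668360*r^14*z^11 + 148944113*r^14*z^10 + 61288184*r^14*z^9 + 15874601*r^14*z^8 + 2450740*r^14*z^7 + 181719*r^14*z^6 - 737*r^14*z^5 - 715*r^14*z^4 - r^13*z^19 - 649*r^13*z^18 - 6997*r^13*z^17 - 638114*r^13*z^16 - 20195318*r^13*z^15 - 131359353*r^13*z^14 - 311734995*r^13*z^13 - 361838650*r^13*z^12 - 241785434*r^13*z^11 - 97729031*r^13*z^10 - 23963015*r^13*z^9 - 3316548*r^13*z^8 - 178113*r^13*z^7 + 10131*r^13*z^6 + 1287*r^13*z^5 +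 97*r^12*z^19 + 11206*r^12*z^18 + 215153*r^12*z^17 + 11504694*r^12*z^16 + 118160207*r^12*z^15 + 352454367*r^12*z^14 + 435715417*r^12*z^13 + 297433566*r^12*z^12 + 117474824*r^12*z^11 + 26861028*r^12*z^10 + 3174643*r^12*z^9 + 67308*r^12*z^8 - 23331*r^12*z^7 - 1716*r^12*z^6 - 5*r^11*z^20 - 3124*r^11*z^19 - 90670*r^11*z^18 - 4144133*r^11*z^17 - 75598941*r^11*z^16 - 304771176*r^11*z^15 - 396391752*r^11*z^14 - 277645883*r^11*z^13 - 106269281*r^11*z^12 - 22040078*r^11*z^11 - 1973803*r^11*z^10 + 95304*r^11*z^9 + 32439*r^11*z^8 + 1716*r^11*z^7 + 227*r^10*z^20 + 32155*r^10*z^19 + 900001*r^10*z^18 + 32747538*r^10*z^17 + 199757829*r^10*z^16 + 268288355*r^10*z^15 + 195264149*r^10*z^14 + 71220271*r^10*z^13 + 12607380*r^10*z^12 + 509106*r^10*z^11 - 200959*r^10*z^10 - 31339*r^10*z^9 - 1287*r^10*z^8 - 3913*r^9*z^20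 - 134090*r^9*z^19 - 8694679*r^9*z^18 - 96717861*r^9*z^17 - 130811778*r^9*z^16 - 101862698*r^9*z^15 - 34002157*r^9*z^14 - 4295550*r^9*z^13 + 366838*r^9*z^12 + 196679*r^9*z^11 + 21857*r^9*z^10 + 715*r^9*z^9 + 18506*r^8*z^20 + 1115765*r^8*z^19 + 32780254*r^8*z^18 + 43230231*r^8*z^17 + 38482946*r^8*z^16 + 10461351*r^8*z^15 + 171082*r^8*z^14 - 496315*r^8*z^13 - 123946*r^8*z^12 - 11033*r^8*z^11 - 286*r^8*z^10 - 20885*r^7*z^20 - 6958050*r^7*z^19 - 8536706*r^7*z^18 - 10223335*r^7*z^17 - 1346687*r^7*z^16 + 656466*r^7*z^15 + 280093*r^7*z^14 + 52886*r^7*z^13 + 3943*r^7*z^12 + 78*r^7*z^11 + 695805*r^6*z^20 + 698065*r^6*z^19 + 1868431*r^6*z^18 - 379222*r^6*z^17 - 348623*r^6*z^16 - 89276*r^6*z^15 - 15011*r^6*z^14 - 947*r^6*z^13 - 13*r^6*z^12 + 20885*r^5*z^20 - 236030*r^5*z^19 + 223195*r^5*z^18 + 80713*r^5*z^17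 + 14180*r^5*z^16 + 2685*r^5*z^15 + 137*r^5*z^14 + r^5*z^13 + 18506*r^4*z^20 - 46105*r^4*z^19 - 5020*r^4*z^18 - 87*r^4*z^17 - 309*r^4*z^16 - 9*r^4*z^15 + 3913*r^3*z^20 - 1416*r^3*z^19 - 244*r^3*z^18 + 45*r^3*z^17 + 227*r^2*z^20 - 3*r^2*z^19 - 10*r^2*z^18 + 5*r*z^20 + r*z^19) * hP3

theorem S51_urel_of_key (un ud sn sd : K) (hud : ud ≠ 0) (hsd : sd ≠ 0)
    (key : un^3 * ud * sn^2 + (un^4 + 9*un^3*ud + 9*un*ud^3 - ud^4) * sn * sd + 125 * un * ud^3 * sd^2 = 0) :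
    (un/ud)^3*(sn/sd)^2 + ((un/ud)^4 + 9*(un/ud)^3 + 9*(un/ud) - 1)*(sn/sd) + 125*(un/ud) = 0 := by
  have h : (un/ud)^3*(sn/sd)^2 + ((un/ud)^4 + 9*(un/ud)^3 + 9*(un/ud) - 1)*(sn/sd) + 125*(un/ud)
      = (un^3 * ud * sn^2 + (un^4 + 9*un^3*ud + 9*un*ud^3 - ud^4) * sn * sd + 125 * un * ud^3 * sd^2) / (ud^4 * sd^2) := by
    field_simp
  rw [h, key, zero_div]

/-- The core algebraic statement: from a rational 3-torsion abscissa `x₀` and the abscissas `x₁, x₂` of `P, 2P`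
for a point `P` of order 5 we get a point `(u, s)` on the `X₀(15)` relation. -/
theorem S51_core (b₂ b₄ b₆ b₈ x₀ x₁ x₂ : K)
    (hrel : 4*b₈ = b₂*b₆ - b₄^2)
    (hΔ : -b₂^2*b₈ - 8*b₄^3 - 27*b₆^2 + 9*b₂*b₄*b₆ ≠ 0)
    (h₀ : 3*x₀^4 + b₂*x₀^3 + 3*b₄*x₀^2 + 3*b₆*x₀ + b₈ = 0)
    (hne : x₁ ≠ x₂)
    (hR₁ : x₂*(4*x₁^3 + b₂*x₁^2 + 2*b₄*x₁ + b₆) = x₁^4 - b₄*x₁^2 - 2*b₆*x₁ - b₈)
    (hR₂ : x₁*(4*x₂^3 + b₂*x₂^2 + 2*b₄*x₂ + b₆) = x₂^4 - b₄*x₂^2 - 2*b₆*x₂ - b₈)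
    (Δ d e m s u : K)
    (hΔdef : Δ = -b₂^2*b₈ - 8*b₄^3 - 27*b₆^2 + 9*b₂*b₄*b₆)
    (hd : d = (x₁ - x₂)^2)
    (he : e = 4*x₀^3 + b₂*x₀^2 + 2*b₄*x₀ + b₆)
    (hm : m = (x₀ - x₁)*(x₀ - x₂))
    (hs : s = Δ/d^3)
    (hu : u = -Δ*m^3/(d^3*e^2)) :
    e ≠ 0 ∧ b₂^2 - 24*b₄ = d*(s^2 + 10*s + 5) ∧
      u^3*s^2 + (u^4 + 9*u^3 + 9*u - 1)*s + 125*u = 0 := by
  have hene : e ≠ 0 := by
    intro h
    exact hΔ (S51_delta_eq_zero_of_common_root b₂ b₄ b₆ b₈ x₀ hrel (he ▸ h) h₀)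
  refine ⟨hene, ?_⟩
  have hρ : x₂ - x₁ ≠ 0 := sub_ne_zero.mpr (Ne.symm hne)
  have hB₆ne : 4*x₁^3 + b₂*x₁^2 + 2*b₄*x₁ + b₆ ≠ 0 := by
    intro h
    apply hΔ
    apply S51_delta_eq_zero_of_common_root b₂ b₄ b₆ b₈ x₁ hrel h
    have h' : x₁^4 - b₄*x₁^2 - 2*b₆*x₁ - b₈ = 0 := by rw [← hR₁, h, mul_zero]
    linear_combination x₁ * h - h'
  obtain ⟨L, r, hL, hr, hρLr, e2, e4, e6, e8⟩ :=
    S51_normal_form (b₂ + 12*x₁) (b₄ + x₁*b₂ + 6*x₁^2) (4*x₁^3 + b₂*x₁^2 + 2*b₄*x₁ + b₆)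
      (3*x₁^4 + b₂*x₁^3 + 3*b₄*x₁^2 + 3*b₆*x₁ + b₈) (x₂ - x₁) hρ
      (by linear_combination hrel) (by linear_combination hR₁) (by linear_combination -hR₂) hB₆ne
  obtain ⟨z, hz⟩ : ∃ z : K, z = (x₀ - x₁)/L := ⟨_, rfl⟩
  have hx₀ : x₀ = x₁ + L*z := by rw [hz]; field_simp; ring
  have hx₂ : x₂ = x₁ + L*r := by linear_combination hρLr
  have hb₂ : b₂ = L*(r^2 - 6*r + 1) - 12*x₁ := by linear_combination e2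
  subst hx₀ hx₂ hb₂
  have hb₄ : b₄ = L^2*(r^2 - r) - x₁*(L*(r^2 - 6*r + 1) - 12*x₁) - 6*x₁^2 := by linear_combination e4
  subst hb₄
  have hb₆ : b₆ = L^3*r^2 - (4*x₁^3 + (L*(r^2 - 6*r + 1) - 12*x₁)*x₁^2 + 2*(L^2*(r^2 - r) - x₁*(L*(r^2 - 6*r + 1) - 12*x₁) - 6*x₁^2)*x₁) := by
    linear_combination e6
  subst hb₆
  have hb₈ : b₈ = -L^4*r^3 - (3*x₁^4 + (L*(r^2 - 6*r + 1) - 12*x₁)*x₁^3 + 3*(L^2*(r^2 - r) - x₁*(L*(r^2 - 6*r + 1) - 12*x₁) - 6*x₁^2)*x₁^2 + 3*(L^3*r^2 - (4*x₁^3 + (L*(r^2 - 6*r + 1) - 12*x₁)*x₁^2 + 2*(L^2*(r^2 - r) - x₁*(L*(r^2 - 6*r + 1) - 12*x₁) - 6*x₁^2)*x₁))*x₁) := by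
    linear_combination e8
  subst hb₈
  -- everything is now expressed through x₁, L, r, z
  have hP3 : 3*z^4 + (r^2 - 6*r + 1)*z^3 + 3*(r^2 - r)*z^2 + 3*r^2*z - r^3 = 0 := by
    have h : L^4 * (3*z^4 + (r^2 - 6*r + 1)*z^3 + 3*(r^2 - r)*z^2 + 3*r^2*z - r^3) = 0 := by
      linear_combination h₀
    rcases mul_eq_zero.mp h with h | h
    · exact absurd (pow_eq_zero_iff (n := 4) (by norm_num) |>.mp h) hL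
    · exact h
  have hΔ' : Δ = L^6*r^5*(r^2 - 11*r - 1) := by rw [hΔdef]; ring
  have hd' : d = L^2*r^2 := by rw [hd]; ring
  have he' : e = L^3*(4*z^3 + (r^2 - 6*r + 1)*z^2 + 2*(r^2 - r)*z + r^2) := by rw [he]; ring
  have hm' : m = L^2*(z*(z - r)) := by rw [hm]; ring
  have hg : 4*z^3 + (r^2 - 6*r + 1)*z^2 + 2*(r^2 - r)*z + r^2 ≠ 0 := by
    intro h; apply hene; rw [he', h, mul_zero]
  have hs' : s = (r^2 - 11*r - 1)/r := by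
    rw [hs, hΔ', hd']; field_simp
  have hu' : u = (-(r^2 - 11*r - 1) * z^3 * (z-r)^3) /
      (r * (4*z^3 + (r^2 - 6*r + 1)*z^2 + 2*(r^2 - r)*z + r^2)^2) := by
    rw [hu, hΔ', hd', he', hm']; field_simp
  constructor
  · rw [hs', hd']; field_simp; ring
  · have key := S51_urel_key r z hP3
    rw [hs', hu']
    exact S51_urel_of_key _ _ _ _ (mul_ne_zero hr (pow_ne_zero _ hg)) hr key

end Core

end Fermat.Agent.S51
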