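import Mathlib
import Fermat.Agent.S51.Core

namespace Fermat.Agent.S51

/-- Rational version of the core statement: from a rational root `x₀` of `Ψ₃` and rational symmetric functions
`σ = x(P)+x(2P)`, `π = x(P)x(2P)` for a point `P` of order `5` we obtain a rational point `(u, s)` on the
`X₀(15)`-relation together with the `X₀(5)`-relation for `s`. -/
theorem S51_core_rat (b₂ b₄ b₆ b₈ x₀ σ π : ℚ)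
    (hrel : 4*b₈ = b₂*b₆ - b₄^2)
    (hΔ : -b₂^2*b₈ - 8*b₄^3 - 27*b₆^2 + 9*b₂*b₄*b₆ ≠ 0)
    (h₀ : 3*x₀^4 + b₂*x₀^3 + 3*b₄*x₀^2 + 3*b₆*x₀ + b₈ = 0)
    (hd : σ^2 - 4*π ≠ 0)
    (hS₁ : -σ^3 + 6*π*σ + b₂*π + b₄*σ + b₆ = 0)
    (hS₂ : -σ^4 + 8*π*σ^2 - 10*π^2 + b₂*π*σ + b₄*σ^2 + 2*b₄*π + 3*b₆*σ + 2*b₈ = 0) :
    ∃ s u : ℚ, s ≠ 0 ∧
      (b₂^2 - 24*b₄)^3 * s = (-b₂^2*b₈ - 8*b₄^3 - 27*b₆^2 + 9*b₂*b₄*b₆) * (s^2 + 10*s + 5)^3 ∧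
      u^3*s^2 + (u^4 + 9*u^3 + 9*u - 1)*s + 125*u = 0 := by
  obtain ⟨Δ, hΔdef⟩ : ∃ Δ : ℚ, Δ = -b₂^2*b₈ - 8*b₄^3 - 27*b₆^2 + 9*b₂*b₄*b₆ := ⟨_, rfl⟩
  obtain ⟨d, hddef⟩ : ∃ d : ℚ, d = σ^2 - 4*π := ⟨_, rfl⟩
  obtain ⟨e, hedef⟩ : ∃ e : ℚ, e = 4*x₀^3 + b₂*x₀^2 + 2*b₄*x₀ + b₆ := ⟨_, rfl⟩
  obtain ⟨m, hmdef⟩ : ∃ m : ℚ, m = x₀^2 - σ*x₀ + π := ⟨_, rfl⟩
  obtain ⟨s, hsdef⟩ : ∃ s : ℚ, s = Δ/d^3 := ⟨_, rfl⟩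
  obtain ⟨u, hudef⟩ : ∃ u : ℚ, u = -Δ*m^3/(d^3*e^2) := ⟨_, rfl⟩
  have hΔne : Δ ≠ 0 := by rw [hΔdef]; exact hΔ
  have hdne : d ≠ 0 := by rw [hddef]; exact hd
  -- pass to ℂ to split `X² - σX + π`
  obtain ⟨δ, hδ⟩ : ∃ δ : ℂ, δ^2 = ((d : ℚ) : ℂ) := IsAlgClosed.exists_pow_nat_eq _ (by norm_num)
  have hδne : δ ≠ 0 := by
    intro h
    rw [h] at hδ
    have : ((d : ℚ) : ℂ) = 0 := by rw [← hδ]; ring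
    exact hdne (by exact_mod_cast this)
  obtain ⟨x₁, hx₁⟩ : ∃ x₁ : ℂ, x₁ = ((σ : ℂ) + δ)/2 := ⟨_, rfl⟩
  obtain ⟨x₂, hx₂⟩ : ∃ x₂ : ℂ, x₂ = ((σ : ℂ) - δ)/2 := ⟨_, rfl⟩
  have hsum : x₁ + x₂ = (σ : ℂ) := by rw [hx₁, hx₂]; ring
  have hdiff : x₁ - x₂ = δ := by rw [hx₁, hx₂]; ring
  have hdC : ((d : ℚ) : ℂ) = (σ : ℂ)^2 - 4*(π : ℂ) := by rw [hddef]; push_cast; ring
  have hprod : x₁ * x₂ = (π : ℂ) := by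
    have : x₁ * x₂ = ((σ : ℂ)^2 - δ^2)/4 := by rw [hx₁, hx₂]; ring
    rw [this, hδ, hdC]; ring
  have hne : x₁ ≠ x₂ := by
    intro h
    apply hδne
    rw [← hdiff, h, sub_self]
  have hS₁C : -(x₁ + x₂)^3 + 6*(x₁*x₂)*(x₁ + x₂) + (b₂ : ℂ)*(x₁*x₂) + (b₄ : ℂ)*(x₁ + x₂) + (b₆ : ℂ) = 0 := by
    rw [hsum, hprod]; exact_mod_cast hS₁
  have hS₂C : -(x₁ + x₂)^4 + 8*(x₁*x₂)*(x₁ + x₂)^2 - 10*(x₁*x₂)^2 + (b₂ : ℂ)*(x₁*x₂)*(x₁ + x₂)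
      + (b₄ : ℂ)*(x₁ + x₂)^2 + 2*(b₄ : ℂ)*(x₁*x₂) + 3*(b₆ : ℂ)*(x₁ + x₂) + 2*(b₈ : ℂ) = 0 := by
    rw [hsum, hprod]; exact_mod_cast hS₂
  have hR₁ : x₂*(4*x₁^3 + (b₂ : ℂ)*x₁^2 + 2*(b₄ : ℂ)*x₁ + (b₆ : ℂ))
      = x₁^4 - (b₄ : ℂ)*x₁^2 - 2*(b₆ : ℂ)*x₁ - (b₈ : ℂ) := by
    linear_combination ((x₁ - x₂)/2) * hS₁C + (1/2 : ℂ) * hS₂C
  have hR₂ : x₁*(4*x₂^3 + (b₂ : ℂ)*x₂^2 + 2*(b₄ : ℂ)*x₂ + (b₆ : ℂ))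
      = x₂^4 - (b₄ : ℂ)*x₂^2 - 2*(b₆ : ℂ)*x₂ - (b₈ : ℂ) := by
    linear_combination (-(x₁ - x₂)/2) * hS₁C + (1/2 : ℂ) * hS₂C
  have hcore := S51_core (K := ℂ) (b₂ : ℂ) (b₄ : ℂ) (b₆ : ℂ) (b₈ : ℂ) (x₀ : ℂ) x₁ x₂
    (by exact_mod_cast hrel) (by exact_mod_cast hΔ) (by exact_mod_cast h₀) hne hR₁ hR₂
    (Δ : ℂ) (d : ℂ) (e : ℂ) (m : ℂ) (s : ℂ) (u : ℂ)
    (by rw [hΔdef]; push_cast; ring)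
    (by rw [hdiff, hδ])
    (by rw [hedef]; push_cast; ring)
    (by
      have : (x₀ - x₁)*(x₀ - x₂) = (x₀ : ℂ)^2 - (x₁ + x₂)*x₀ + x₁*x₂ := by ring
      rw [this, hsum, hprod, hmdef]; push_cast; ring)
    (by rw [hsdef]; push_cast; ring)
    (by rw [hudef]; push_cast; ring)
  obtain ⟨he, hc₄, hurel⟩ := hcore
  have hene : e ≠ 0 := by exact_mod_cast he
  have hc₄' : b₂^2 - 24*b₄ = d*(s^2 + 10*s + 5) := by exact_mod_cast hc₄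
  have hurel' : u^3*s^2 + (u^4 + 9*u^3 + 9*u - 1)*s + 125*u = 0 := by exact_mod_cast hurel
  have hsne : s ≠ 0 := by rw [hsdef]; exact div_ne_zero hΔne (pow_ne_zero _ hdne)
  have hsd : s * d^3 = Δ := by rw [hsdef]; field_simp
  refine ⟨s, u, hsne, ?_, hurel'⟩
  rw [← hΔdef, hc₄', ← hsd]; ring

end Fermat.Agent.S51
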