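/-
S51, part C2 (helper13): rational points on the quartic model of X₀(15)
  `y² = (x² + x − 1)(x² − 11x − 1)`.

Pure algebra: with `u = x(2x−1)/(x+2)` and `v = 4y(x²+4x−1)/(x+2)²` one has `v² = u⁴ − 322u² + 1`,
and `X = (u²+1+v)/2`, `Y = u(u²−161+v)/2` lies on `E_D : Y² = X(X−1)(X−81)`.
So the statement follows from `E_D(ℚ) = E_D[2]`, i.e. from `∀ X Y : ℚ, Y² = X(X−1)(X−81) → Y = 0`.
-/
import Mathlib

set_option autoImplicit false

namespace Fermat.Agent.S51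

/-- The quartic `v² = u⁴ − 322u² + 1` maps to `E_D : Y² = X(X−1)(X−81)`; if all rational points of
`E_D` have `Y = 0`, then all rational points of the quartic have `u = 0`. -/
theorem S51_quartic322_of_ED
    (hED : ∀ X Y : ℚ, Y ^ 2 = X * (X - 1) * (X - 81) → Y = 0)
    (u v : ℚ) (h : v ^ 2 = u ^ 4 - 322 * u ^ 2 + 1) : u = 0 := by
  have key : ((u ^ 2 + 1 + v) / 2) * ((u ^ 2 + 1 + v) / 2 - 1) =
      u ^ 2 * ((u ^ 2 + 1 + v) / 2 - 81) := by
    linear_combination (1 / 4 : ℚ) * h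
  have hY := hED ((u ^ 2 + 1 + v) / 2) (u * (u ^ 2 - 161 + v) / 2) (by rw [key]; ring)
  -- `u * (u² − 161 + v) = 0`
  have hprod : u * (u ^ 2 - 161 + v) = 0 := by linarith
  rcases mul_eq_zero.mp hprod with hu | hv
  · exact hu
  · -- `v = 161 − u²` would force `161² = 1`
    exfalso
    have hv' : v = 161 - u ^ 2 := by linarith
    rw [hv'] at h
    nlinarith [h]

/-- Rational points of `y² = (x²+x−1)(x²−11x−1)`, assuming `E_D(ℚ) = E_D[2]`. -/
theorem S51_X015_of_ED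
    (hED : ∀ X Y : ℚ, Y ^ 2 = X * (X - 1) * (X - 81) → Y = 0)
    (x y : ℚ) (h : y ^ 2 = (x ^ 2 + x - 1) * (x ^ 2 - 11 * x - 1)) :
    x = 0 ∨ x = -2 ∨ x = 1 / 2 := by
  by_cases hx : x = -2
  · exact Or.inr (Or.inl hx)
  have hx2 : x + 2 ≠ 0 := fun h0 => hx (by linarith)
  have hv : (4 * y * (x ^ 2 + 4 * x - 1) / (x + 2) ^ 2) ^ 2 =
      (x * (2 * x - 1) / (x + 2)) ^ 4 - 322 * (x * (2 * x - 1) / (x + 2)) ^ 2 + 1 := by
    field_simp
    linear_combination (16 * (x ^ 2 + 4 * x - 1) ^ 2) * h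
  have hu := S51_quartic322_of_ED hED _ _ hv
  have hnum : x * (2 * x - 1) = 0 := by
    rcases div_eq_zero_iff.mp hu with h1 | h1
    · exact h1
    · exact absurd h1 hx2
  rcases mul_eq_zero.mp hnum with h1 | h1
  · exact Or.inl h1
  · exact Or.inr (Or.inr (by linarith))

end Fermat.Agent.S51
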