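/-
S51, part C2 (helper13): `E_D : Y² = X(X−1)(X−81)` has only the rational points with `Y = 0`,
given the integer descent statement `S51b_SD` (helper1):
  `x² − y² = z²`, `x² − 81y² = w²` ⇒ `y = 0`.
Duplication: for a point `(X, Y)` of `E_D`, the numbers `x = X²−81`, `y = 2Y`, `z = X²−2X+81`,
`w = X²−162X+81` satisfy the system; clear denominators.
-/
import Mathlib
import Fermat.Agent.S51.X015

set_option autoImplicit false

namespace Fermat.Agent.S51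

theorem S51_ED_of_SD
    (hSD : ∀ x y z w : ℤ, x ^ 2 - y ^ 2 = z ^ 2 → x ^ 2 - 81 * y ^ 2 = w ^ 2 → y = 0)
    (X Y : ℚ) (h : Y ^ 2 = X * (X - 1) * (X - 81)) : Y = 0 := by
  set m : ℤ := X.num with hm
  set n : ℤ := (X.den : ℤ) with hn
  have hn0 : (n : ℚ) ≠ 0 := by
    have : (X.den : ℚ) ≠ 0 := Nat.cast_ne_zero.mpr X.den_ne_zero
    rw [hn]; exact_mod_cast this
  have hX : X = (m : ℚ) / (n : ℚ) := by
    have := (Rat.num_div_den X).symm
    simpa [hm, hn] using this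
  -- the integer `T = 4 m n (m - n) (m - 81 n)` is the square of the rational `2 Y n²`
  set T : ℤ := 4 * m * n * (m - n) * (m - 81 * n) with hT
  have hTsq : ((T : ℤ) : ℚ) = (2 * Y * (n : ℚ) ^ 2) * (2 * Y * (n : ℚ) ^ 2) := by
    have h1 : (2 * Y * (n : ℚ) ^ 2) * (2 * Y * (n : ℚ) ^ 2) = 4 * Y ^ 2 * (n : ℚ) ^ 4 := by ring
    rw [h1, h, hX, hT]
    push_cast
    field_simp
  have hsq : IsSquare ((T : ℤ) : ℚ) := ⟨_, hTsq⟩
  obtain ⟨y', hy'⟩ := Rat.isSquare_intCast_iff.mp hsq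
  have hy0 : y' = 0 := by
    refine hSD (m ^ 2 - 81 * n ^ 2) y' (m ^ 2 - 2 * m * n + 81 * n ^ 2)
      (m ^ 2 - 162 * m * n + 81 * n ^ 2) ?_ ?_
    · have : y' ^ 2 = T := by rw [hy']; ring
      rw [this, hT]; ring
    · have : y' ^ 2 = T := by rw [hy']; ring
      rw [this, hT]; ring
  have hT0 : ((T : ℤ) : ℚ) = 0 := by
    rw [hy', hy0]; simp
  rw [hTsq] at hT0
  have h2 : 2 * Y * (n : ℚ) ^ 2 = 0 := by
    rcases mul_self_eq_zero.mp hT0 with h3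
    exact h3
  have h3 : Y * (n : ℚ) ^ 2 = 0 := by linarith
  rcases mul_eq_zero.mp h3 with h4 | h4
  · exact h4
  · exact absurd (pow_eq_zero_iff two_ne_zero |>.mp h4) hn0

/-- Rational points of `y² = (x²+x−1)(x²−11x−1)`, given the integer descent statement. -/
theorem S51_X015_of_SD
    (hSD : ∀ x y z w : ℤ, x ^ 2 - y ^ 2 = z ^ 2 → x ^ 2 - 81 * y ^ 2 = w ^ 2 → y = 0)
    (x y : ℚ) (h : y ^ 2 = (x ^ 2 + x - 1) * (x ^ 2 - 11 * x - 1)) :
    x = 0 ∨ x = -2 ∨ x = 1 / 2 :=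
  S51_X015_of_ED (S51_ED_of_SD hSD) x y h

end Fermat.Agent.S51
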