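import Mathlib

/-!
# S51, part C2 (helper1): the concordant-form descent

`S51b_SD` : the only integer solutions of `x² − y² = z²`, `x² − 81 y² = w²` have `y = 0`.
`S51b_ED` : the only rational points of `Y² = X (X − 1) (X − 81)` have `Y = 0`.

(The curve `E_D : Y² = X (X − 1) (X − 81)` is 2-isogenous to `X₀(15)`; `E_D(ℚ) = E_D[2]`.)
-/

set_option autoImplicit false

namespace Fermat.Agent.S51b

/-- A positive coprime factor of a square is a square of a positive integer. -/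
lemma sq_of_coprime_pos {a b c : ℤ} (hcop : IsCoprime a b) (h : a * b = c ^ 2) (ha : 0 < a) :
    ∃ r : ℤ, 0 < r ∧ a = r ^ 2 := by
  obtain ⟨r, hr | hr⟩ := Int.sq_of_isCoprime hcop h
  · have hr0 : r ≠ 0 := by
      rintro rfl
      simp at hr
      omega
    exact ⟨|r|, abs_pos.mpr hr0, by rw [sq_abs]; exact hr⟩
  · exfalso
    have := sq_nonneg r
    omega

lemma isCoprime_of_forall_prime {a b : ℤ}
    (H : ∀ p : ℕ, p.Prime → (p : ℤ) ∣ a → (p : ℤ) ∣ b → False) : IsCoprime a b := by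
  rw [Int.isCoprime_iff_nat_coprime]
  refine Nat.coprime_of_dvd fun p hp ha hb => H p hp ?_ ?_
  · exact Int.natCast_dvd.mpr ha
  · exact Int.natCast_dvd.mpr hb

lemma not_prime_dvd_of_isCoprime {a b : ℤ} (h : IsCoprime a b) {p : ℕ} (hp : p.Prime)
    (ha : (p : ℤ) ∣ a) (hb : (p : ℤ) ∣ b) : False := by
  have hu : IsUnit (p : ℤ) := h.isUnit_of_dvd' ha hb
  rw [Int.isUnit_iff] at hu
  have := hp.two_le
  omega

lemma prime_dvd_of_dvd_sq {p : ℕ} (hp : p.Prime) {a : ℤ} (h : (p : ℤ) ∣ a ^ 2) : (p : ℤ) ∣ a :=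
  (Nat.prime_iff_prime_int.mp hp).dvd_of_dvd_pow h

/-- The algebraic core of the descent step. -/
lemma core (k a₁ a₂ b₂ c x y z w : ℤ) (hk : k ≠ 0) (ha₂ : a₂ ≠ 0)
    (h1 : x ^ 2 - y ^ 2 = z ^ 2) (h2 : x ^ 2 - 81 * y ^ 2 = w ^ 2)
    (e1 : x - z = k * a₁ ^ 2) (e2 : x + z = k * a₂ ^ 2) (e4 : x + w = k * b₂ ^ 2)
    (e5 : z + w = k * c ^ 2) :
    ∃ W : ℤ, b₂ ^ 2 - a₁ ^ 2 = c ^ 2 ∧ b₂ ^ 2 - 81 * a₁ ^ 2 = W ^ 2 := by
  have hA : b₂ ^ 2 - a₁ ^ 2 = c ^ 2 := by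
    have : k * (b₂ ^ 2 - a₁ ^ 2) = k * c ^ 2 := by linear_combination (-1) * e4 + e1 + e5
    exact mul_left_cancel₀ hk this
  have hB : a₂ ^ 2 * (b₂ ^ 2 - 81 * a₁ ^ 2) = (b₂ * c) ^ 2 := by
    have : k ^ 2 * (a₂ ^ 2 * (b₂ ^ 2 - 81 * a₁ ^ 2)) = k ^ 2 * (b₂ * c) ^ 2 := by
      calc k ^ 2 * (a₂ ^ 2 * (b₂ ^ 2 - 81 * a₁ ^ 2))
          = (k * a₂ ^ 2) * (k * b₂ ^ 2) - 81 * (k * a₁ ^ 2) * (k * a₂ ^ 2) := by ring
        _ = (x + z) * (x + w) - 81 * (x - z) * (x + z) := by rw [← e1, ← e2, ← e4]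
        _ = (x + w) * (z + w) := by linear_combination h2 - 81 * h1
        _ = (k * b₂ ^ 2) * (k * c ^ 2) := by rw [e4, e5]
        _ = k ^ 2 * (b₂ * c) ^ 2 := by ring
    exact mul_left_cancel₀ (pow_ne_zero 2 hk) this
  have hdvd : a₂ ∣ b₂ * c := by
    have : a₂ ^ 2 ∣ (b₂ * c) ^ 2 := ⟨_, hB.symm⟩
    exact (Int.pow_dvd_pow_iff two_ne_zero).mp this
  obtain ⟨W, hW⟩ := hdvd
  refine ⟨W, hA, ?_⟩
  have : a₂ ^ 2 * (b₂ ^ 2 - 81 * a₁ ^ 2) = a₂ ^ 2 * W ^ 2 := by rw [hB, hW]; ring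
  exact mul_left_cancel₀ (pow_ne_zero 2 ha₂) this

/-- Splitting `(x - z)(x + z) = (2t)²` with `x`, `z` odd and coprime. -/
lemma split_odd_odd {x z t : ℤ} (hxz : IsCoprime x z) (hx : ¬ (2 : ℤ) ∣ x) (hz : ¬ (2 : ℤ) ∣ z)
    (hpos1 : 0 < x - z) (hpos2 : 0 < x + z) (h : (x - z) * (x + z) = (2 * t) ^ 2) :
    ∃ a₁ a₂ : ℤ, 0 < a₁ ∧ 0 < a₂ ∧ x - z = 2 * a₁ ^ 2 ∧ x + z = 2 * a₂ ^ 2 := by
  obtain ⟨u, hu⟩ : (2 : ℤ) ∣ x - z := by omega
  obtain ⟨v, hv⟩ : (2 : ℤ) ∣ x + z := by omega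
  have huv : u * v = t ^ 2 := by
    have : 4 * (u * v) = 4 * t ^ 2 := by
      calc 4 * (u * v) = (2 * u) * (2 * v) := by ring
        _ = (x - z) * (x + z) := by rw [hu, hv]
        _ = 4 * t ^ 2 := by rw [h]; ring
    linarith
  have hcop : IsCoprime u v := by
    obtain ⟨s, r, hsr⟩ := hxz
    refine ⟨s - r, s + r, ?_⟩
    have hx' : x = u + v := by linarith
    have hz' : z = v - u := by linarith
    rw [hx', hz'] at hsr
    linear_combination hsr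
  have hu0 : 0 < u := by omega
  have hv0 : 0 < v := by omega
  obtain ⟨a₁, ha₁, hua⟩ := sq_of_coprime_pos hcop huv hu0
  obtain ⟨a₂, ha₂, hva⟩ := sq_of_coprime_pos hcop.symm (by rw [mul_comm]; exact huv) hv0
  exact ⟨a₁, a₂, ha₁, ha₂, by rw [hu, hua], by rw [hv, hva]⟩

/-- Splitting `(x - z)(x + z) = t²` with `x`, `z` coprime and `x - z` odd. -/
lemma split_odd_even {x z t : ℤ} (hxz : IsCoprime x z) (hodd : ¬ (2 : ℤ) ∣ x - z)
    (hpos1 : 0 < x - z) (hpos2 : 0 < x + z) (h : (x - z) * (x + z) = t ^ 2) :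
    ∃ a₁ a₂ : ℤ, 0 < a₁ ∧ 0 < a₂ ∧ x - z = a₁ ^ 2 ∧ x + z = a₂ ^ 2 := by
  have hcop : IsCoprime (x - z) (x + z) := by
    obtain ⟨s, r, hsr⟩ := hxz
    obtain ⟨m, hm⟩ : ∃ m, x - z = 2 * m + 1 := ⟨(x - z) / 2, by omega⟩
    refine ⟨1 - m * (s - r), -(m * (s + r)), ?_⟩
    have h2 : (s - r) * (x - z) + (s + r) * (x + z) = 2 := by linear_combination 2 * hsr
    have : (1 - m * (s - r)) * (x - z) + -(m * (s + r)) * (x + z)
        = (x - z) - m * ((s - r) * (x - z) + (s + r) * (x + z)) := by ring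
    rw [this, h2]
    linarith
  obtain ⟨a₁, ha₁, hua⟩ := sq_of_coprime_pos hcop h hpos1
  obtain ⟨a₂, ha₂, hva⟩ := sq_of_coprime_pos hcop.symm (by rw [mul_comm]; exact h) hpos2
  exact ⟨a₁, a₂, ha₁, ha₂, hua, hva⟩

/-- Coprime positive `u`, `v` with `u v = 5 t²`: one of them is a square. -/
lemma five_split {u v t : ℤ} (hcop : IsCoprime u v) (hu : 0 < u) (hv : 0 < v)
    (h : u * v = 5 * t ^ 2) : (∃ c : ℤ, u = c ^ 2) ∨ (∃ c : ℤ, v = c ^ 2) := by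
  have h5 : Prime (5 : ℤ) := by
    have := Nat.prime_iff_prime_int.mp (by norm_num : Nat.Prime 5)
    simpa using this
  have hdvd : (5 : ℤ) ∣ u * v := ⟨t ^ 2, h⟩
  rcases h5.dvd_or_dvd hdvd with ⟨u₁, hu₁⟩ | ⟨v₁, hv₁⟩
  · right
    have h' : v * u₁ = t ^ 2 := by
      have : 5 * (v * u₁) = 5 * t ^ 2 := by rw [← h, hu₁]; ring
      linarith
    have hc : IsCoprime v u₁ := by
      rw [hu₁] at hcop
      exact (IsCoprime.of_mul_left_right hcop).symm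
    obtain ⟨c, -, hc'⟩ := sq_of_coprime_pos hc h' hv
    exact ⟨c, hc'⟩
  · left
    have h' : u * v₁ = t ^ 2 := by
      have : 5 * (u * v₁) = 5 * t ^ 2 := by rw [← h, hv₁]; ring
      linarith
    have hc : IsCoprime u v₁ := by
      rw [hv₁] at hcop
      exact IsCoprime.of_mul_right_right hcop
    obtain ⟨c, -, hc'⟩ := sq_of_coprime_pos hc h' hu
    exact ⟨c, hc'⟩


section prelim

variable {x y z w : ℤ}

lemma x_odd (h1 : x ^ 2 - y ^ 2 = z ^ 2) (hcop : IsCoprime x y) : ¬ (2 : ℤ) ∣ x := by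
  intro hx2
  have hy2 : ¬ (2 : ℤ) ∣ y := fun hy2 =>
    not_prime_dvd_of_isCoprime hcop Nat.prime_two (by exact_mod_cast hx2) (by exact_mod_cast hy2)
  obtain ⟨a, rfl⟩ := hx2
  obtain ⟨b, hb⟩ : ∃ b, y = 2 * b + 1 := ⟨y / 2, by omega⟩
  obtain ⟨c, hc | hc⟩ := Int.even_or_odd' z
  · subst hb hc; ring_nf at h1; omega
  · subst hb hc; ring_nf at h1; omega

lemma three_not_dvd_x (h1 : x ^ 2 - y ^ 2 = z ^ 2) (hcop : IsCoprime x y) : ¬ (3 : ℤ) ∣ x := by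
  intro h3
  have key : ∀ a b c : ZMod 3, a ^ 2 - b ^ 2 = c ^ 2 → a = 0 → b = 0 := by decide
  have hcast : ((x : ZMod 3)) ^ 2 - (y : ZMod 3) ^ 2 = (z : ZMod 3) ^ 2 := by
    exact_mod_cast congrArg (Int.cast : ℤ → ZMod 3) h1
  have hx0 : (x : ZMod 3) = 0 := (ZMod.intCast_zmod_eq_zero_iff_dvd x 3).mpr (by exact_mod_cast h3)
  have hy0 := key _ _ _ hcast hx0
  have h3y : ((3 : ℕ) : ℤ) ∣ y := (ZMod.intCast_zmod_eq_zero_iff_dvd y 3).mp hy0
  exact not_prime_dvd_of_isCoprime hcop Nat.prime_three (by exact_mod_cast h3) h3y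

lemma coprime_x_z (h1 : x ^ 2 - y ^ 2 = z ^ 2) (hcop : IsCoprime x y) : IsCoprime x z := by
  apply isCoprime_of_forall_prime
  intro p hp hpx hpz
  have : (p : ℤ) ∣ y ^ 2 := by
    have e : y ^ 2 = x ^ 2 - z ^ 2 := by linarith
    rw [e]
    exact dvd_sub (dvd_pow hpx two_ne_zero) (dvd_pow hpz two_ne_zero)
  exact not_prime_dvd_of_isCoprime hcop hp hpx (prime_dvd_of_dvd_sq hp this)

lemma coprime_x_w (h1 : x ^ 2 - y ^ 2 = z ^ 2) (h2 : x ^ 2 - 81 * y ^ 2 = w ^ 2)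
    (hcop : IsCoprime x y) : IsCoprime x w := by
  apply isCoprime_of_forall_prime
  intro p hp hpx hpw
  have h81 : (p : ℤ) ∣ 81 * y ^ 2 := by
    have e : 81 * y ^ 2 = x ^ 2 - w ^ 2 := by linarith
    rw [e]
    exact dvd_sub (dvd_pow hpx two_ne_zero) (dvd_pow hpw two_ne_zero)
  rcases (Nat.prime_iff_prime_int.mp hp).dvd_or_dvd h81 with h | h
  · have h3 : (p : ℤ) ∣ 3 := by
      have e : (81 : ℤ) = 3 ^ 4 := by norm_num
      rw [e] at h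
      exact (Nat.prime_iff_prime_int.mp hp).dvd_of_dvd_pow h
    have hp3 : p = 3 := by
      have : p ∣ 3 := by exact_mod_cast h3
      exact (Nat.prime_dvd_prime_iff_eq hp Nat.prime_three).mp this
    subst hp3
    exact three_not_dvd_x h1 hcop (by exact_mod_cast hpx)
  · exact not_prime_dvd_of_isCoprime hcop hp hpx (prime_dvd_of_dvd_sq hp h)

lemma no_odd_prime_z_w (h1 : x ^ 2 - y ^ 2 = z ^ 2) (h2 : x ^ 2 - 81 * y ^ 2 = w ^ 2)
    (hcop : IsCoprime x y) {p : ℕ} (hp : p.Prime) (hp2 : p ≠ 2)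
    (hpz : (p : ℤ) ∣ z) (hpw : (p : ℤ) ∣ w) : False := by
  have e1 : 80 * y ^ 2 = z ^ 2 - w ^ 2 := by linarith
  have e2 : 80 * x ^ 2 = 81 * z ^ 2 - w ^ 2 := by linarith
  have hpP := Nat.prime_iff_prime_int.mp hp
  by_cases hp5 : p = 5
  · subst hp5
    obtain ⟨z', rfl⟩ := hpz
    obtain ⟨w', rfl⟩ := hpw
    have h5 : Prime (5 : ℤ) := by simpa using hpP
    have hy : (5 : ℤ) ∣ y := by
      have : (5 : ℤ) ∣ 16 * y ^ 2 := ⟨z' ^ 2 - w' ^ 2, by push_cast at e1; linarith⟩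
      rcases h5.dvd_or_dvd this with h | h
      · norm_num at h
      · exact h5.dvd_of_dvd_pow h
    have hx : (5 : ℤ) ∣ x := by
      have : (5 : ℤ) ∣ 16 * x ^ 2 := ⟨81 * z' ^ 2 - w' ^ 2, by push_cast at e2; linarith⟩
      rcases h5.dvd_or_dvd this with h | h
      · norm_num at h
      · exact h5.dvd_of_dvd_pow h
    exact not_prime_dvd_of_isCoprime hcop (by norm_num : Nat.Prime 5)
      (by exact_mod_cast hx) (by exact_mod_cast hy)
  · have h80 : ¬ (p : ℤ) ∣ 80 := by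
      intro h
      have h' : p ∣ 2 ^ 4 * 5 := by exact_mod_cast h
      rcases (Nat.Prime.dvd_mul hp).mp h' with h'' | h''
      · exact hp2 ((Nat.prime_dvd_prime_iff_eq hp Nat.prime_two).mp (hp.dvd_of_dvd_pow h''))
      · exact hp5 ((Nat.prime_dvd_prime_iff_eq hp (by norm_num : Nat.Prime 5)).mp h'')
    have hy : (p : ℤ) ∣ y := by
      have : (p : ℤ) ∣ 80 * y ^ 2 := by
        rw [e1]; exact dvd_sub (dvd_pow hpz two_ne_zero) (dvd_pow hpw two_ne_zero)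
      rcases hpP.dvd_or_dvd this with h | h
      · exact absurd h h80
      · exact prime_dvd_of_dvd_sq hp h
    have hx : (p : ℤ) ∣ x := by
      have : (p : ℤ) ∣ 80 * x ^ 2 := by
        rw [e2]
        exact dvd_sub (Dvd.dvd.mul_left (dvd_pow hpz two_ne_zero) 81) (dvd_pow hpw two_ne_zero)
      rcases hpP.dvd_or_dvd this with h | h
      · exact absurd h h80
      · exact prime_dvd_of_dvd_sq hp h
    exact not_prime_dvd_of_isCoprime hcop hp hx hy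

end prelim


section descent

variable {x y z w : ℤ}

lemma abs_w_lt_x (hy : 0 < y) (hx : 0 < x) (h2 : x ^ 2 - 81 * y ^ 2 = w ^ 2) :
    -x < w ∧ w < x := by
  constructor <;> nlinarith [sq_nonneg (x + w), sq_nonneg (x - w), sq_nonneg y]

lemma abs_w_lt_z (hy : 0 < y) (hz : 0 < z) (h1 : x ^ 2 - y ^ 2 = z ^ 2)
    (h2 : x ^ 2 - 81 * y ^ 2 = w ^ 2) : -z < w ∧ w < z := by
  constructor <;> nlinarith [sq_nonneg (z + w), sq_nonneg (z - w), sq_nonneg y]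

lemma z_lt_x (hy : 0 < y) (hx : 0 < x) (h1 : x ^ 2 - y ^ 2 = z ^ 2) : z < x := by
  nlinarith [sq_nonneg (x + z), sq_nonneg (x - z), sq_nonneg y]

/-- Descent step, `y` even. -/
lemma descent_even {y' : ℤ} (hx : 0 < x) (hy : 0 < y') (hz : 0 < z)
    (h1 : x ^ 2 - (2 * y') ^ 2 = z ^ 2) (h2 : x ^ 2 - 81 * (2 * y') ^ 2 = w ^ 2)
    (hcop : IsCoprime x (2 * y')) :
    ∃ x₁ y₁ z₁ w₁ : ℤ, 0 < y₁ ∧ y₁ < 2 * y' ∧ x₁ ^ 2 - y₁ ^ 2 = z₁ ^ 2 ∧
      x₁ ^ 2 - 81 * y₁ ^ 2 = w₁ ^ 2 := by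
  have hy2 : 0 < 2 * y' := by linarith
  have hxodd := x_odd h1 hcop
  have hzodd : ¬ (2 : ℤ) ∣ z := by
    intro hz2
    obtain ⟨c, rfl⟩ := hz2
    obtain ⟨a, ha⟩ : ∃ a, x = 2 * a + 1 := ⟨x / 2, by omega⟩
    subst ha; ring_nf at h1; omega
  have hwodd : ∀ w' : ℤ, w' ^ 2 = w ^ 2 → ¬ (2 : ℤ) ∣ w' := by
    intro w' hw' hw2
    obtain ⟨c, rfl⟩ := hw2
    obtain ⟨a, ha⟩ : ∃ a, x = 2 * a + 1 := ⟨x / 2, by omega⟩
    rw [← hw'] at h2
    subst ha; ring_nf at h2; omega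
  have hxz := coprime_x_z h1 hcop
  have hzx := z_lt_x hy2 hx h1
  obtain ⟨a₁, a₂, ha₁, ha₂, e1, e2⟩ := split_odd_odd (t := y') hxz hxodd hzodd (by linarith)
    (by linarith) (by linear_combination h1)
  -- the key step, for a suitable sign of `w`
  have key : ∀ w' : ℤ, w' ^ 2 = w ^ 2 → (∃ c : ℤ, z + w' = 2 * c ^ 2) →
      ∃ x₁ y₁ z₁ w₁ : ℤ, 0 < y₁ ∧ y₁ < 2 * y' ∧ x₁ ^ 2 - y₁ ^ 2 = z₁ ^ 2 ∧
        x₁ ^ 2 - 81 * y₁ ^ 2 = w₁ ^ 2 := by
    rintro w' hw' ⟨c, hc⟩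
    have h2' : x ^ 2 - 81 * (2 * y') ^ 2 = w' ^ 2 := by rw [hw']; exact h2
    have hxw' := coprime_x_w h1 h2' hcop
    have hb := abs_w_lt_x hy2 hx h2'
    obtain ⟨b₁, b₂, -, hb₂, -, e4⟩ := split_odd_odd (t := 9 * y') hxw' hxodd (hwodd w' hw')
      (by linarith [hb.2]) (by linarith [hb.1]) (by linear_combination h2')
    obtain ⟨W, hA, hB⟩ := core 2 a₁ a₂ b₂ c x (2 * y') z w' two_ne_zero ha₂.ne' h1 h2' e1 e2 e4 hc
    refine ⟨b₂, a₁, c, W, ha₁, ?_, hA, hB⟩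
    -- size
    have hprod : a₁ ^ 2 * a₂ ^ 2 = y' ^ 2 := by
      have : (2 * a₁ ^ 2) * (2 * a₂ ^ 2) = (2 * y') ^ 2 := by
        rw [← e1, ← e2]; linear_combination h1
      linarith
    by_contra hlt
    have hlt' : 2 * y' ≤ a₁ := not_lt.mp hlt
    have h1a : 1 ≤ a₂ ^ 2 := by nlinarith
    nlinarith [mul_pos ha₁ ha₁, mul_pos hy hy]
  -- now split `(z - w)(z + w) = 80 y²`
  have hwz := abs_w_lt_z hy2 hz h1 h2
  have hwodd' := hwodd w rfl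
  obtain ⟨u, hu⟩ : (2 : ℤ) ∣ z - w := by omega
  obtain ⟨v, hv⟩ : (2 : ℤ) ∣ z + w := by omega
  have huv : u * v = 5 * (4 * y') ^ 2 := by
    have : 4 * (u * v) = 4 * (5 * (4 * y') ^ 2) := by
      calc 4 * (u * v) = (2 * u) * (2 * v) := by ring
        _ = (z - w) * (z + w) := by rw [hu, hv]
        _ = 4 * (5 * (4 * y') ^ 2) := by linear_combination h2 - h1
    linarith
  have hcuv : IsCoprime u v := by
    apply isCoprime_of_forall_prime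
    intro p hp hpu hpv
    have hpz : (p : ℤ) ∣ z := by
      have : z = u + v := by linarith
      rw [this]; exact dvd_add hpu hpv
    have hpw : (p : ℤ) ∣ w := by
      have : w = v - u := by linarith
      rw [this]; exact dvd_sub hpv hpu
    by_cases hp2 : p = 2
    · subst hp2
      exact hzodd (by exact_mod_cast hpz)
    · exact no_odd_prime_z_w h1 h2 hcop hp hp2 hpz hpw
  have hu0 : 0 < u := by omega
  have hv0 : 0 < v := by omega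
  rcases five_split hcuv hu0 hv0 huv with ⟨c, hc⟩ | ⟨c, hc⟩
  · -- `z - w = 2 c²`: use `-w`
    exact key (-w) (by ring) ⟨c, by rw [← hc]; linarith⟩
  · exact key w rfl ⟨c, by rw [← hc]; linarith⟩

/-- Descent step, `y` odd. -/
lemma descent_odd (hx : 0 < x) (hy : 0 < y) (hz : 0 < z) (hyodd : ¬ (2 : ℤ) ∣ y)
    (h1 : x ^ 2 - y ^ 2 = z ^ 2) (h2 : x ^ 2 - 81 * y ^ 2 = w ^ 2)
    (hcop : IsCoprime x y) :
    ∃ x₁ y₁ z₁ w₁ : ℤ, 0 < y₁ ∧ y₁ < y ∧ x₁ ^ 2 - y₁ ^ 2 = z₁ ^ 2 ∧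
      x₁ ^ 2 - 81 * y₁ ^ 2 = w₁ ^ 2 := by
  have hxodd := x_odd h1 hcop
  have hxO : Odd x := by
    rw [Int.odd_iff]; omega
  have hyO : Odd y := by
    rw [Int.odd_iff]; omega
  have hx8 := Int.eight_dvd_sq_sub_one_of_odd hxO
  have hy8 := Int.eight_dvd_sq_sub_one_of_odd hyO
  -- `4 ∣ z`
  have hz4 : (4 : ℤ) ∣ z := by
    have h8 : (8 : ℤ) ∣ z ^ 2 := by
      have : z ^ 2 = (x ^ 2 - 1) - (y ^ 2 - 1) := by linarith
      rw [this]; exact dvd_sub hx8 hy8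
    obtain ⟨c, hc | hc⟩ := Int.even_or_odd' z
    · obtain ⟨d, hd | hd⟩ := Int.even_or_odd' c
      · exact ⟨d, by rw [hc, hd]; ring⟩
      · exfalso
        subst hc hd
        obtain ⟨e, he⟩ := h8
        ring_nf at he
        omega
    · exfalso
      subst hc
      obtain ⟨e, he⟩ := h8
      ring_nf at he
      omega
  have hw4 : ∀ w' : ℤ, w' ^ 2 = w ^ 2 → (4 : ℤ) ∣ w' := by
    intro w' hw'
    have h8 : (8 : ℤ) ∣ w' ^ 2 := by
      have : w' ^ 2 = (x ^ 2 - 1) - 81 * (y ^ 2 - 1) - 8 * 10 := by rw [hw']; linarith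
      rw [this]
      exact dvd_sub (dvd_sub hx8 (Dvd.dvd.mul_left hy8 81)) (dvd_mul_right 8 10)
    obtain ⟨c, hc | hc⟩ := Int.even_or_odd' w'
    · obtain ⟨d, hd | hd⟩ := Int.even_or_odd' c
      · exact ⟨d, by rw [hc, hd]; ring⟩
      · exfalso
        subst hc hd
        obtain ⟨e, he⟩ := h8
        ring_nf at he
        omega
    · exfalso
      subst hc
      obtain ⟨e, he⟩ := h8
      ring_nf at he
      omega
  have hxz := coprime_x_z h1 hcop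
  have hzx := z_lt_x hy hx h1
  obtain ⟨a₁, a₂, ha₁, ha₂, e1, e2⟩ := split_odd_even (t := y) hxz (by omega) (by linarith)
    (by linarith) (by linear_combination h1)
  have key : ∀ w' : ℤ, w' ^ 2 = w ^ 2 → (∃ c : ℤ, z + w' = 1 * c ^ 2) →
      ∃ x₁ y₁ z₁ w₁ : ℤ, 0 < y₁ ∧ y₁ < y ∧ x₁ ^ 2 - y₁ ^ 2 = z₁ ^ 2 ∧
        x₁ ^ 2 - 81 * y₁ ^ 2 = w₁ ^ 2 := by
    rintro w' hw' ⟨c, hc⟩
    have h2' : x ^ 2 - 81 * y ^ 2 = w' ^ 2 := by rw [hw']; exact h2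
    have hxw' := coprime_x_w h1 h2' hcop
    have hb := abs_w_lt_x hy hx h2'
    have hw'4 := hw4 w' hw'
    obtain ⟨b₁, b₂, -, hb₂, -, e4⟩ := split_odd_even (t := 9 * y) hxw' (by omega)
      (by linarith [hb.2]) (by linarith [hb.1]) (by linear_combination h2')
    obtain ⟨W, hA, hB⟩ := core 1 a₁ a₂ b₂ c x y z w' one_ne_zero ha₂.ne' h1 h2'
      (by rw [e1]; ring) (by rw [e2]; ring) (by rw [e4]; ring) hc
    refine ⟨b₂, a₁, c, W, ha₁, ?_, hA, hB⟩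
    have hprod : a₁ ^ 2 * a₂ ^ 2 = y ^ 2 := by
      rw [← e1, ← e2]; linear_combination h1
    have h2a : 2 ≤ a₂ ^ 2 := by rw [← e2]; linarith
    by_contra hlt
    have hlt' : y ≤ a₁ := not_lt.mp hlt
    nlinarith [mul_pos ha₁ ha₁, mul_pos hy hy]
  have hwz := abs_w_lt_z hy hz h1 h2
  have hw4' := hw4 w rfl
  obtain ⟨u, hu⟩ : (4 : ℤ) ∣ z - w := dvd_sub hz4 hw4'
  obtain ⟨v, hv⟩ : (4 : ℤ) ∣ z + w := dvd_add hz4 hw4'
  have huv : u * v = 5 * y ^ 2 := by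
    have : 16 * (u * v) = 16 * (5 * y ^ 2) := by
      calc 16 * (u * v) = (4 * u) * (4 * v) := by ring
        _ = (z - w) * (z + w) := by rw [hu, hv]
        _ = 16 * (5 * y ^ 2) := by linear_combination h2 - h1
    linarith
  have hcuv : IsCoprime u v := by
    apply isCoprime_of_forall_prime
    intro p hp hpu hpv
    by_cases hp2 : p = 2
    · subst hp2
      -- then `4 ∣ u v = 5 y²`, so `y` is even
      obtain ⟨u', rfl⟩ := hpu
      obtain ⟨v', rfl⟩ := hpv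
      obtain ⟨b, hb⟩ : ∃ b, y = 2 * b + 1 := ⟨y / 2, by omega⟩
      subst hb
      push_cast at huv
      ring_nf at huv
      omega
    · have hpz : (p : ℤ) ∣ z := by
        have : z = 2 * (u + v) := by linarith
        rw [this]; exact Dvd.dvd.mul_left (dvd_add hpu hpv) 2
      have hpw : (p : ℤ) ∣ w := by
        have : w = 2 * (v - u) := by linarith
        rw [this]; exact Dvd.dvd.mul_left (dvd_sub hpv hpu) 2
      exact no_odd_prime_z_w h1 h2 hcop hp hp2 hpz hpw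
  have hu0 : 0 < u := by omega
  have hv0 : 0 < v := by omega
  rcases five_split hcuv hu0 hv0 huv with ⟨c, hc⟩ | ⟨c, hc⟩
  · exact key (-w) (by ring) ⟨2 * c, by linear_combination hu + 4 * hc⟩
  · exact key w rfl ⟨2 * c, by linear_combination hv + 4 * hc⟩

end descent


/-- Existence of a strictly smaller solution (positive entries). -/
lemma exists_smaller {x y z w : ℤ} (hx : 0 < x) (hy : 0 < y) (hz : 0 < z)
    (h1 : x ^ 2 - y ^ 2 = z ^ 2) (h2 : x ^ 2 - 81 * y ^ 2 = w ^ 2) :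
    ∃ x₁ y₁ z₁ w₁ : ℤ, 0 < y₁ ∧ y₁ < y ∧ x₁ ^ 2 - y₁ ^ 2 = z₁ ^ 2 ∧
      x₁ ^ 2 - 81 * y₁ ^ 2 = w₁ ^ 2 := by
  by_cases hcop : IsCoprime x y
  · by_cases hyev : (2 : ℤ) ∣ y
    · obtain ⟨y', rfl⟩ := hyev
      exact descent_even hx (by linarith) hz h1 h2 hcop
    · exact descent_odd hx hy hz hyev h1 h2 hcop
  · -- a common prime divisor can be divided out
    have hex : ∃ p : ℕ, p.Prime ∧ (p : ℤ) ∣ x ∧ (p : ℤ) ∣ y := by
      by_contra hne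
      exact hcop (isCoprime_of_forall_prime fun p hp hpx hpy => hne ⟨p, hp, hpx, hpy⟩)
    obtain ⟨p, hp, ⟨x', hx'⟩, ⟨y', hy'⟩⟩ := hex
    have hpz : (p : ℤ) ∣ z := prime_dvd_of_dvd_sq hp
      (by rw [← h1, hx', hy']; exact ⟨p * (x' ^ 2 - y' ^ 2), by ring⟩)
    have hpw : (p : ℤ) ∣ w := prime_dvd_of_dvd_sq hp
      (by rw [← h2, hx', hy']; exact ⟨p * (x' ^ 2 - 81 * y' ^ 2), by ring⟩)
    obtain ⟨z', hz'⟩ := hpz
    obtain ⟨w', hw'⟩ := hpw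
    have hp0 : (0 : ℤ) < p := by exact_mod_cast hp.pos
    have hp2 : (2 : ℤ) ≤ p := by exact_mod_cast hp.two_le
    have hy'pos : 0 < y' := by
      rw [hy'] at hy
      by_contra hneg
      have : y' ≤ 0 := not_lt.mp hneg
      nlinarith
    refine ⟨x', y', z', w', hy'pos, ?_, ?_, ?_⟩
    · rw [hy']; nlinarith
    · have : (p : ℤ) ^ 2 * (x' ^ 2 - y' ^ 2) = (p : ℤ) ^ 2 * z' ^ 2 := by
        rw [hx', hy', hz'] at h1; linear_combination h1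
      exact mul_left_cancel₀ (pow_ne_zero 2 hp0.ne') this
    · have : (p : ℤ) ^ 2 * (x' ^ 2 - 81 * y' ^ 2) = (p : ℤ) ^ 2 * w' ^ 2 := by
        rw [hx', hy', hw'] at h2; linear_combination h2
      exact mul_left_cancel₀ (pow_ne_zero 2 hp0.ne') this

lemma SD_aux : ∀ n : ℕ, ∀ x y z w : ℤ, y.natAbs = n → x ^ 2 - y ^ 2 = z ^ 2 →
    x ^ 2 - 81 * y ^ 2 = w ^ 2 → y = 0 := by
  intro n
  induction n using Nat.strong_induction_on with
  | _ n ih =>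
    intro x y z w hn h1 h2
    by_contra hy0
    have hysq : 0 < y ^ 2 := by positivity
    have hx0 : x ≠ 0 := by
      rintro rfl
      nlinarith [sq_nonneg z]
    have hz0 : z ≠ 0 := by
      rintro rfl
      nlinarith [sq_nonneg w]
    have hy : 0 < |y| := abs_pos.mpr hy0
    have hx : 0 < |x| := abs_pos.mpr hx0
    have hz : 0 < |z| := abs_pos.mpr hz0
    have h1' : |x| ^ 2 - |y| ^ 2 = |z| ^ 2 := by simpa [sq_abs] using h1
    have h2' : |x| ^ 2 - 81 * |y| ^ 2 = w ^ 2 := by simpa [sq_abs] using h2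
    obtain ⟨x₁, y₁, z₁, w₁, hy₁, hlt, e1, e2⟩ := exists_smaller hx hy hz h1' h2'
    have hlt' : y₁.natAbs < n := by
      rw [← hn]
      have h3 : ((y₁.natAbs : ℕ) : ℤ) = y₁ := Int.natAbs_of_nonneg hy₁.le
      have h4 : ((y.natAbs : ℕ) : ℤ) = |y| := Int.natCast_natAbs y
      have : ((y₁.natAbs : ℕ) : ℤ) < ((y.natAbs : ℕ) : ℤ) := by rw [h3, h4]; exact hlt
      exact_mod_cast this
    have := ih y₁.natAbs hlt' x₁ y₁ z₁ w₁ rfl e1 e2
    omega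

end Fermat.Agent.S51b

/-- **Concordant-form descent.** The only integer solutions of `x² − y² = z²`, `x² − 81 y² = w²`
have `y = 0`. (Equivalently `2 E(ℚ) = 0` for `E : Y² = X (X − 1) (X − 81)`.) -/
theorem S51b_SD (x y z w : ℤ) (h1 : x ^ 2 - y ^ 2 = z ^ 2) (h2 : x ^ 2 - 81 * y ^ 2 = w ^ 2) :
    y = 0 :=
  Fermat.Agent.S51b.SD_aux _ x y z w rfl h1 h2
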