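/-
S51, part C2 — final statement (helper13 + helper1):
rational points on `y² = (x² + x − 1)(x² − 11x − 1)` have `x ∈ {0, −2, 1/2}`.
Algebra (helper13): `X015.lean`, `X015ED.lean`; integer descent (helper1): `X015b.lean`.
-/
import Fermat.Agent.S51.X015ED
import Fermat.Agent.S51.X015b

set_option autoImplicit false

namespace Fermat.Agent.S51

/-- `E_D : Y² = X(X−1)(X−81)` has no rational point with `Y ≠ 0`. -/
theorem S51_ED (X Y : ℚ) (h : Y ^ 2 = X * (X - 1) * (X - 81)) : Y = 0 :=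
  S51_ED_of_SD (fun x y z w h1 h2 => S51b_SD x y z w h1 h2) X Y h

/-- The quartic `v² = u⁴ − 322u² + 1` has no rational point with `u ≠ 0`. -/
theorem S51_quartic322 (u v : ℚ) (h : v ^ 2 = u ^ 4 - 322 * u ^ 2 + 1) : u = 0 :=
  S51_quartic322_of_ED S51_ED u v h

/-- **C2**: the rational points of the quartic model `y² = (x²+x−1)(x²−11x−1)` of `X₀(15)`. -/
theorem S51_X015 (x y : ℚ) (h : y ^ 2 = (x ^ 2 + x - 1) * (x ^ 2 - 11 * x - 1)) :
    x = 0 ∨ x = -2 ∨ x = 1 / 2 :=
  S51_X015_of_ED S51_ED x y h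

end Fermat.Agent.S51
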