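import Mathlib
import Fermat.Prelude.Def_FLTPrelim_Modularity
import Fermat.Agent.S51.CoreRat
import Fermat.Agent.S51.X015Final

/-!
# S51: final algebraic/Diophantine assembly (helper14)

From a rational root of `Ψ₃` and rational `σ, π` (symmetric functions of the abscissas of `P, 2P`, `P` of order 5)
on a semistable integral model we derive a contradiction, using the rational points of `X₀(15)`.
-/

set_option autoImplicit false

namespace Fermat.Agent.S51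

theorem S51_no_sqrt_five (v : ℚ) : v ^ 2 ≠ 5 := by
  intro h
  have hsq : IsSquare (5 : ℚ) := ⟨v, by rw [← h]; ring⟩
  rw [Rat.isSquare_iff] at hsq
  obtain ⟨⟨a, ha⟩, -⟩ := hsq
  have h5 : (5 : ℤ) = a * a := by simpa using ha
  have ha' : a.natAbs * a.natAbs = 5 := by
    have := congrArg Int.natAbs h5
    simpa [Int.natAbs_mul] using this.symm
  have hle : a.natAbs ≤ 2 := by nlinarith
  interval_cases a.natAbs <;> omega

/-- The Diophantine step: rational solutions of the `(u, s)`-relation of `X₀(15)` with `s ≠ 0`. -/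
theorem S51_dioph (s u : ℚ) (hs : s ≠ 0)
    (h : u^3*s^2 + (u^4 + 9*u^3 + 9*u - 1)*s + 125*u = 0) :
    s = -10 ∨ s = -25/8 ∨ s = -40 ∨ s = -25/2 := by
  have hq : u^2 + 4*u - 1 ≠ 0 := by
    intro h0
    exact S51_no_sqrt_five (u + 2) (by linear_combination h0)
  have hy : ((2*u^3*s + (u^4 + 9*u^3 + 9*u - 1)) / (u^2 + 4*u - 1)) ^ 2
      = ((-u)^2 + (-u) - 1) * ((-u)^2 - 11*(-u) - 1) := by
    rw [div_pow, div_eq_iff (pow_ne_zero _ hq)]
    linear_combination (4*u^3) * h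
  rcases S51_X015 (-u) _ hy with h0 | h0 | h0
  · have hu : u = 0 := by linarith
    rw [hu] at h
    exact absurd (by linarith) hs
  · have hu : u = 2 := by linarith
    rw [hu] at h
    have : (8*s + 25) * (s + 10) = 0 := by linear_combination h
    rcases mul_eq_zero.mp this with h1 | h1
    · right; left; linarith
    · left; linarith
  · have hu : u = -1/2 := by linarith
    rw [hu] at h
    have : (2*s + 25) * (s + 40) = 0 := by linear_combination (-16 : ℚ) * h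
    rcases mul_eq_zero.mp this with h1 | h1
    · right; right; right; linarith
    · right; right; left; linarith

/-- Part D: the four exceptional values of `s` are incompatible with semistability at `5`. -/
theorem S51_partD (c₄ Δ : ℤ) (hss : (5 : ℤ) ∣ Δ → ¬ (5 : ℤ) ∣ c₄) (s : ℚ)
    (hs : s = -10 ∨ s = -25/8 ∨ s = -40 ∨ s = -25/2)
    (h : (c₄ : ℚ)^3 * s = (Δ : ℚ) * (s^2 + 10*s + 5)^3) : False := by
  have key : ∀ A B : ℤ, ¬ (5 : ℤ) ∣ A → A * c₄^3 = 5 * B * Δ → ¬ (5 : ℤ) ∣ B → False := by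
    intro A B hA hAB hB
    have h5 : Prime (5 : ℤ) := Int.prime_iff_natAbs_prime.mpr (by norm_num)
    have h1 : (5 : ℤ) ∣ A * c₄^3 := ⟨B * Δ, by rw [hAB]; ring⟩
    have h2 : (5 : ℤ) ∣ c₄^3 := (h5.dvd_or_dvd h1).resolve_left hA
    have h3 : (5 : ℤ) ∣ c₄ := h5.dvd_of_dvd_pow h2
    obtain ⟨k, hk⟩ := h3
    have h4 : B * Δ = 25 * (A * k^3) := by
      have : 5 * (B * Δ) = 5 * (25 * (A * k^3)) := by rw [hk] at hAB; linear_combination -hAB
      exact mul_left_cancel₀ (by norm_num) this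
    have h6 : (5 : ℤ) ∣ B * Δ := ⟨5 * (A * k^3), by rw [h4]; ring⟩
    have h7 : (5 : ℤ) ∣ Δ := (h5.dvd_or_dvd h6).resolve_left hB
    exact hss h7 ⟨k, hk⟩
  have key2 : ∀ A B : ℤ, ¬ (5 : ℤ) ∣ A → A * c₄^3 = 25 * B * Δ → ¬ (5 : ℤ) ∣ B → False := by
    intro A B hA hAB hB
    have h5 : Prime (5 : ℤ) := Int.prime_iff_natAbs_prime.mpr (by norm_num)
    have h1 : (5 : ℤ) ∣ A * c₄^3 := ⟨5 * B * Δ, by rw [hAB]; ring⟩
    have h2 : (5 : ℤ) ∣ c₄^3 := (h5.dvd_or_dvd h1).resolve_left hA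
    have h3 : (5 : ℤ) ∣ c₄ := h5.dvd_of_dvd_pow h2
    obtain ⟨k, hk⟩ := h3
    have h4 : B * Δ = 5 * (A * k^3) := by
      have : 25 * (B * Δ) = 25 * (5 * (A * k^3)) := by rw [hk] at hAB; linear_combination -hAB
      exact mul_left_cancel₀ (by norm_num) this
    have h6 : (5 : ℤ) ∣ B * Δ := ⟨A * k^3, by rw [h4]⟩
    have h7 : (5 : ℤ) ∣ Δ := (h5.dvd_or_dvd h6).resolve_left hB
    exact hss h7 ⟨k, hk⟩
  rcases hs with rfl | rfl | rfl | rfl
  · -- s = -10 : -10 c₄³ = 125 Δ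
    refine key2 2 (-1) (by norm_num) ?_ (by norm_num)
    have : ((2 * c₄^3 : ℤ) : ℚ) = ((25 * (-1) * Δ : ℤ) : ℚ) := by push_cast; linear_combination (-1/5 : ℚ) * h
    exact_mod_cast this
  · -- s = -25/8
    refine key (2^15) (211^3) (by norm_num) ?_ (by norm_num)
    have : (((2:ℤ)^15 * c₄^3 : ℤ) : ℚ) = ((5 * (211:ℤ)^3 * Δ : ℤ) : ℚ) := by
      push_cast; linear_combination (-2^18/25 : ℚ) * h
    exact_mod_cast this
  · -- s = -40
    refine key2 8 (-(241^3)) (by norm_num) ?_ (by norm_num)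
    have : ((8 * c₄^3 : ℤ) : ℚ) = ((25 * (-((241:ℤ)^3)) * Δ : ℤ) : ℚ) := by
      push_cast; linear_combination (-1/5 : ℚ) * h
    exact_mod_cast this
  · -- s = -25/2
    refine key 32 (-(29^3)) (by norm_num) ?_ (by norm_num)
    have : ((32 * c₄^3 : ℤ) : ℚ) = ((5 * (-((29:ℤ)^3)) * Δ : ℤ) : ℚ) := by
      push_cast; linear_combination (-64/25 : ℚ) * h
    exact_mod_cast this

/-- Main assembly: a semistable integral model cannot have both a rational root of `Ψ₃` and rational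
symmetric functions of the abscissas of a point of order `5` and its double. -/
theorem S51_main (W : WeierstrassCurve ℤ) (hΔ : W.Δ ≠ 0) (hW : W.IsSemistableModel)
    (h3 : ∃ x₀ : ℚ, 3*x₀^4 + (W.map (Int.castRingHom ℚ)).b₂*x₀^3 + 3*(W.map (Int.castRingHom ℚ)).b₄*x₀^2
        + 3*(W.map (Int.castRingHom ℚ)).b₆*x₀ + (W.map (Int.castRingHom ℚ)).b₈ = 0)
    (h5 : ∃ s p : ℚ, s ^ 2 - 4 * p ≠ 0 ∧
      -s ^ 3 + 6 * p * s + (W.map (Int.castRingHom ℚ)).b₂ * p + (W.map (Int.castRingHom ℚ)).b₄ * s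
        + (W.map (Int.castRingHom ℚ)).b₆ = 0 ∧
      -s ^ 4 + 8 * p * s ^ 2 - 10 * p ^ 2 + (W.map (Int.castRingHom ℚ)).b₂ * p * s
        + (W.map (Int.castRingHom ℚ)).b₄ * s ^ 2 + 2 * (W.map (Int.castRingHom ℚ)).b₄ * p
        + 3 * (W.map (Int.castRingHom ℚ)).b₆ * s + 2 * (W.map (Int.castRingHom ℚ)).b₈ = 0) : False := by
  obtain ⟨x₀, h₀⟩ := h3
  obtain ⟨σ, π, hd, hS₁, hS₂⟩ := h5
  obtain ⟨E, hE⟩ : ∃ E : WeierstrassCurve ℚ, E = W.map (Int.castRingHom ℚ) := ⟨_, rfl⟩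
  rw [← hE] at h₀ hS₁ hS₂
  have hEΔ : E.Δ = ((W.Δ : ℤ) : ℚ) := by rw [hE, WeierstrassCurve.map_Δ]; rfl
  have hEc₄ : E.c₄ = ((W.c₄ : ℤ) : ℚ) := by rw [hE, WeierstrassCurve.map_c₄]; rfl
  have hΔ' : -E.b₂^2*E.b₈ - 8*E.b₄^3 - 27*E.b₆^2 + 9*E.b₂*E.b₄*E.b₆ = ((W.Δ : ℤ) : ℚ) := by
    rw [← hEΔ, WeierstrassCurve.Δ]
  have hc₄' : E.b₂^2 - 24*E.b₄ = ((W.c₄ : ℤ) : ℚ) := by
    rw [← hEc₄, WeierstrassCurve.c₄]
  obtain ⟨s, u, hs, hc, hu⟩ := S51_core_rat E.b₂ E.b₄ E.b₆ E.b₈ x₀ σ π E.b_relation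
    (by rw [hΔ']; exact_mod_cast hΔ) (by linear_combination h₀) hd
    (by linear_combination hS₁) (by linear_combination hS₂)
  rw [hΔ', hc₄'] at hc
  exact S51_partD W.c₄ W.Δ (hW 5 (by norm_num)) s (S51_dioph s u hs hu) hc

end Fermat.Agent.S51
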