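/-
S51, part A (helper26): `E[3]` and `E[5]` as `Submodule.torsionBy ℤ W.Point n`:
finiteness, cardinality bounds and nontriviality.
-/
import Fermat.Agent.S51.TorsCount
import Mathlib.Algebra.Module.Torsion.Basic

namespace Fermat.Agent.S51

open WeierstrassCurve WeierstrassCurve.Affine Polynomial

variable {K : Type*} [Field K] [DecidableEq K] (W : WeierstrassCurve.Affine K)

theorem S51_coe_torsionBy (n : ℕ) :
    ((Submodule.torsionBy ℤ W.Point ((n : ℕ) : ℤ) : Submodule ℤ W.Point) : Set W.Point)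
      = {P : W.Point | n • P = 0} := by
  ext P
  simp only [SetLike.mem_coe, Submodule.mem_torsionBy_iff, Set.mem_ofPred_eq, natCast_zsmul]

theorem S51_torsionBy_three_finite (h3 : (3 : K) ≠ 0) :
    Finite (Submodule.torsionBy ℤ W.Point ((3 : ℕ) : ℤ)) := by
  have h := (S51_three_torsion_finite (W := W) h3).1
  rw [← S51_coe_torsionBy] at h
  exact h.to_subtype

theorem S51_torsionBy_three_card (h3 : (3 : K) ≠ 0) :
    Nat.card (Submodule.torsionBy ℤ W.Point ((3 : ℕ) : ℤ)) ≤ 9 := by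
  have h := (S51_three_torsion_finite (W := W) h3).2
  rw [← S51_coe_torsionBy] at h
  exact h

theorem S51_torsionBy_five_finite (h5 : (5 : K) ≠ 0) :
    Finite (Submodule.torsionBy ℤ W.Point ((5 : ℕ) : ℤ)) := by
  have h := (S51_five_torsion_finite (W := W) h5).1
  rw [← S51_coe_torsionBy] at h
  exact h.to_subtype

theorem S51_torsionBy_five_card (h5 : (5 : K) ≠ 0) :
    Nat.card (Submodule.torsionBy ℤ W.Point ((5 : ℕ) : ℤ)) ≤ 25 := by
  have h := (S51_five_torsion_finite (W := W) h5).2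
  rw [← S51_coe_torsionBy] at h
  exact h

theorem S51_torsionBy_three_nontrivial [IsAlgClosed K] (hΔ : W.Δ ≠ 0) (h2 : (2 : K) ≠ 0)
    (h3 : (3 : K) ≠ 0) : Nontrivial (Submodule.torsionBy ℤ W.Point ((3 : ℕ) : ℤ)) := by
  obtain ⟨P, hP0, hP⟩ := S51_exists_three_torsion (W := W) hΔ h2 h3
  have hmem : P ∈ Submodule.torsionBy ℤ W.Point ((3 : ℕ) : ℤ) := by
    rw [Submodule.mem_torsionBy_iff, natCast_zsmul]; exact hP
  exact ⟨⟨⟨P, hmem⟩, 0, fun h => hP0 (congrArg Subtype.val h)⟩⟩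

theorem S51_torsionBy_five_nontrivial [IsAlgClosed K] (hΔ : W.Δ ≠ 0) (h2 : (2 : K) ≠ 0)
    (h5 : (5 : K) ≠ 0) : Nontrivial (Submodule.torsionBy ℤ W.Point ((5 : ℕ) : ℤ)) := by
  obtain ⟨P, hP0, hP⟩ := S51_exists_five_torsion (W := W) hΔ h2 h5
  have hmem : P ∈ Submodule.torsionBy ℤ W.Point ((5 : ℕ) : ℤ) := by
    rw [Submodule.mem_torsionBy_iff, natCast_zsmul]; exact hP
  exact ⟨⟨⟨P, hmem⟩, 0, fun h => hP0 (congrArg Subtype.val h)⟩⟩

end Fermat.Agent.S51
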