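/-
S51, part A (helper26): the `n = 3` assembly.
A Galois-stable proper nonzero submodule of `E[3]` gives a rational root of `Ψ₃`; hence
`¬ ModRepIsIrreducible 3` gives a rational root of `Ψ₃`.
-/
import Fermat.Agent.S51.TorsCommon
import Fermat.Agent.S51.TorsCard
import Fermat.Prelude.Def_FLTPrelim_ModularRep

set_option autoImplicit false

open WeierstrassCurve Polynomial
open WeierstrassCurve.Affine WeierstrassCurve.Affine.Point

namespace Fermat.Agent.S51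

local notation "Qbar" => AlgebraicClosure ℚ

section

variable [DecidableEq Qbar] (W' : WeierstrassCurve.Affine ℚ)

/-- **n = 3 core**: a Galois-stable proper nonzero submodule of `E[3]` yields a rational root of
the third division polynomial. -/
theorem S51_three_core
    (N : Submodule (ZMod 3) (Submodule.torsionBy ℤ (W'⁄Qbar).Point (3 : ℕ)))
    (hN : IsGaloisStable ℚ N) (hbot : N ≠ ⊥) (htop : N ≠ ⊤) :
    ∃ x₀ : ℚ, 3 * x₀ ^ 4 + W'.b₂ * x₀ ^ 3 + 3 * W'.b₄ * x₀ ^ 2 + 3 * W'.b₆ * x₀ + W'.b₈ = 0 := by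
  have : Fact (Nat.Prime 3) := ⟨by norm_num⟩
  have h3Q : (3 : Qbar) ≠ 0 := by norm_num
  have hfin : Finite (Submodule.torsionBy ℤ (W'⁄Qbar).Point (3 : ℕ)) :=
    S51_torsionBy_three_finite (W'⁄Qbar) h3Q
  have hcard : Nat.card (Submodule.torsionBy ℤ (W'⁄Qbar).Point (3 : ℕ)) < 3 ^ 3 :=
    lt_of_le_of_lt (S51_torsionBy_three_card (W'⁄Qbar) h3Q) (by norm_num)
  obtain ⟨P, hPN, hP0⟩ := Submodule.exists_mem_ne_zero_of_ne_bot hbot
  have h3 : 3 • (P : (W'⁄Qbar).Point) = 0 := by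
    have := P.2
    rw [Submodule.mem_torsionBy_iff] at this
    exact_mod_cast this
  have hP0' : (P : (W'⁄Qbar).Point) ≠ 0 := fun h => hP0 (Subtype.ext h)
  obtain ⟨x, hx⟩ := S51_c_exists_isX_of_ne_zero hP0'
  -- `Ψ₃(x) = 0`
  have hpsi : S51_psi3 (W'⁄Qbar) x = 0 := by
    obtain ⟨y, hy, hPxy⟩ := hx
    rw [hPxy] at h3
    exact S51_three_torsion_psi3 hy h3
  -- `x` is Galois-fixed
  have hfix : ∀ σ : Qbar ≃ₐ[ℚ] Qbar, σ x = x := by
    intro σ
    obtain ⟨k, hk, hkP⟩ := S51_c_line hcard N hbot htop hPN hP0 (hN σ P hPN)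
    have hkP' : σ • (P : (W'⁄Qbar).Point) = k • (P : (W'⁄Qbar).Point) := by
      have := congrArg (Subtype.val) hkP
      rw [S51_c_coe_natCast_smul_torsionBy] at this
      exact this
    have hσ := S51_c_isX_smul σ hx
    rw [hkP'] at hσ
    have hk' : k = 0 ∨ k = 1 ∨ k = 2 := by omega
    rcases hk' with rfl | rfl | rfl
    · rw [zero_nsmul] at hσ
      exact absurd rfl hσ.ne_zero
    · rw [one_nsmul] at hσ
      exact hσ.unique hx
    · have h2 : 2 • (P : (W'⁄Qbar).Point) = -(P : (W'⁄Qbar).Point) := by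
        have : 3 • (P : (W'⁄Qbar).Point) = 2 • (P : (W'⁄Qbar).Point) + (P : (W'⁄Qbar).Point) := by
          rw [succ_nsmul]
        rw [this] at h3
        exact eq_neg_of_add_eq_zero_left h3
      rw [h2] at hσ
      exact hσ.unique hx.neg
  obtain ⟨x₀, hx₀⟩ := S51_c_exists_rat_of_fixed x hfix
  refine ⟨x₀, ?_⟩
  have hinj : Function.Injective (algebraMap ℚ Qbar) := (algebraMap ℚ Qbar).injective
  have hb₂ : (W'⁄Qbar).b₂ = algebraMap ℚ Qbar W'.b₂ := by simp [WeierstrassCurve.baseChange]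
  have hb₄ : (W'⁄Qbar).b₄ = algebraMap ℚ Qbar W'.b₄ := by simp [WeierstrassCurve.baseChange]
  have hb₆ : (W'⁄Qbar).b₆ = algebraMap ℚ Qbar W'.b₆ := by simp [WeierstrassCurve.baseChange]
  have hb₈ : (W'⁄Qbar).b₈ = algebraMap ℚ Qbar W'.b₈ := by simp [WeierstrassCurve.baseChange]
  apply hinj
  simp only [map_add, map_mul, map_pow, map_ofNat, hx₀, _root_.map_zero]
  simp only [S51_psi3, hb₂, hb₄, hb₆, hb₈] at hpsi
  exact hpsi

end

/-- **S51, part A, n = 3**, with the `b`-invariants of `W.map (Int.castRingHom ℚ)`. -/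
theorem S51_A3' (W : WeierstrassCurve ℤ) (hΔ : W.Δ ≠ 0) (h : ¬ W.ModRepIsIrreducible 3) :
    ∃ x₀ : ℚ, 3 * x₀ ^ 4 + (W.map (Int.castRingHom ℚ)).b₂ * x₀ ^ 3
      + 3 * (W.map (Int.castRingHom ℚ)).b₄ * x₀ ^ 2 + 3 * (W.map (Int.castRingHom ℚ)).b₆ * x₀
      + (W.map (Int.castRingHom ℚ)).b₈ = 0 := by
  unfold WeierstrassCurve.ModRepIsIrreducible GaloisRepIsIrreducible at h
  have hΔ' : ((W.map (Int.castRingHom ℚ))⁄Qbar).Δ ≠ 0 := by
    simp only [WeierstrassCurve.baseChange, WeierstrassCurve.map_Δ]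
    simpa using hΔ
  have h2Q : (2 : Qbar) ≠ 0 := by norm_num
  have h3Q : (3 : Qbar) ≠ 0 := by norm_num
  have hnt := S51_torsionBy_three_nontrivial ((W.map (Int.castRingHom ℚ))⁄Qbar) hΔ' h2Q h3Q
  rw [not_and] at h
  have h' := h hnt
  push Not at h'
  obtain ⟨N, hN, hbot, htop⟩ := h'
  exact S51_three_core (W.map (Int.castRingHom ℚ)) N hN hbot htop

/-- **S51, part A, n = 3** (signature fixed by helper14). -/
theorem S51_A3 (W : WeierstrassCurve ℤ) (hΔ : W.Δ ≠ 0) (h : ¬ W.ModRepIsIrreducible 3) :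
    ∃ x₀ : ℚ, 3 * x₀ ^ 4 + (W.b₂ : ℚ) * x₀ ^ 3 + 3 * (W.b₄ : ℚ) * x₀ ^ 2 + 3 * (W.b₆ : ℚ) * x₀
      + (W.b₈ : ℚ) = 0 := by
  obtain ⟨x₀, hx₀⟩ := S51_A3' W hΔ h
  refine ⟨x₀, ?_⟩
  simpa [WeierstrassCurve.map_b₂, WeierstrassCurve.map_b₄, WeierstrassCurve.map_b₆,
    WeierstrassCurve.map_b₈] using hx₀

end Fermat.Agent.S51
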