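/-
S51 part A (helper12): the n = 5 assembly, core step.
From a Galois-stable proper nonzero submodule `N` of `E[5]` (with `E[5]` finite of card `< 5^3`)
produce rational `s = x(P) + x(2P)`, `p = x(P) x(2P)` satisfying the two "doubling" relations.
-/
import Fermat.Agent.S51.TorsCommon

set_option autoImplicit false

open WeierstrassCurve Polynomial
open WeierstrassCurve.Affine WeierstrassCurve.Affine.Point

namespace Fermat.Agent.S51

section FiveGroup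

variable {G : Type*} [AddCommGroup G]

lemma S51_c_five_two_ne {P : G} (h5 : 5 • P = 0) (hP : P ≠ 0) : P + P ≠ 0 := by
  intro h
  apply hP
  have : P = 5 • P - 2 • (P + P) := by abel
  rw [this, h5, h]; simp

lemma S51_c_five_four_ne {P : G} (h5 : 5 • P = 0) (hP : P ≠ 0) : (P + P) + (P + P) ≠ 0 := by
  intro h
  apply hP
  have : P = 5 • P - ((P + P) + (P + P)) := by abel
  rw [this, h5, h]; simp

lemma S51_c_five_four_eq {P : G} (h5 : 5 • P = 0) : (P + P) + (P + P) = -P := by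
  have : (P + P) + (P + P) = 5 • P - P := by abel
  rw [this, h5]; simp

lemma S51_c_five_two_ne_self {P : G} (hP : P ≠ 0) : P + P ≠ P := by
  intro h
  apply hP
  have : P = (P + P) - P := by abel
  rw [this, h]; simp

lemma S51_c_five_two_ne_neg {P : G} (h5 : 5 • P = 0) (hP : P ≠ 0) : P + P ≠ -P := by
  intro h
  apply hP
  have : P = 2 • (P + P + P) - 5 • P := by abel
  have h3 : P + P + P = 0 := by rw [h]; simp
  rw [this, h5, h3]; simp

end FiveGroup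

section Core

variable {K : Type*} [Field K] [DecidableEq K] {E : WeierstrassCurve.Affine K}

/-- the two doubling relations between `x₁ = x(P)` and `x₂ = x(2P)` for a point of order 5. -/
lemma S51_c_five_relations {P : E.Point} (h5 : 5 • P = 0) (hP : P ≠ 0) :
    ∃ x₁ x₂ : K, S51_c_IsX P x₁ ∧ S51_c_IsX (P + P) x₂ ∧ x₁ ≠ x₂ ∧
      x₂ * E.Ψ₂Sq.eval x₁ = (E.Φ 2).eval x₁ ∧ x₁ * E.Ψ₂Sq.eval x₂ = (E.Φ 2).eval x₂ := by
  obtain ⟨x₁, hx₁⟩ := S51_c_exists_isX_of_ne_zero hP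
  obtain ⟨x₂, hx₂, -, hR₁⟩ := hx₁.exists_add_self (S51_c_five_two_ne h5 hP)
  obtain ⟨x₄, hx₄, -, hR₂⟩ := hx₂.exists_add_self (S51_c_five_four_ne h5 hP)
  have h41 : x₄ = x₁ := by
    rw [S51_c_five_four_eq h5] at hx₄
    exact hx₄.unique hx₁.neg
  rw [h41] at hR₂
  refine ⟨x₁, x₂, hx₁, hx₂, ?_, hR₁, hR₂⟩
  rintro rfl
  rcases hx₂.eq_or_eq_neg hx₁ with h | h
  · exact S51_c_five_two_ne_self hP h
  · exact S51_c_five_two_ne_neg h5 hP h

/-- `X`-coordinates of the multiples `k • P`, `0 < k < 5`, of a point of order 5. -/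
lemma S51_c_five_isX_nsmul {P : E.Point} (h5 : 5 • P = 0) {x₁ x₂ : K}
    (hx₁ : S51_c_IsX P x₁) (hx₂ : S51_c_IsX (P + P) x₂) {k : ℕ} (hk0 : k ≠ 0) (hk : k < 5) :
    (S51_c_IsX (k • P) x₁ ∧ S51_c_IsX (k • (P + P)) x₂) ∨
      (S51_c_IsX (k • P) x₂ ∧ S51_c_IsX (k • (P + P)) x₁) := by
  have h4 : (P + P) + (P + P) = -P := S51_c_five_four_eq h5
  interval_cases k
  · exact absurd rfl hk0
  · left; simpa using ⟨hx₁, hx₂⟩
  · right
    refine ⟨by simpa [two_nsmul] using hx₂, ?_⟩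
    rw [two_nsmul, h4]; exact hx₁.neg
  · right
    have e1 : 3 • P = -(P + P) := by
      have : 3 • P = 5 • P - (P + P) := by abel
      rw [this, h5]; simp
    have e2 : 3 • (P + P) = P := by
      have : 3 • (P + P) = 5 • P + P := by abel
      rw [this, h5]; simp
    rw [e1, e2]; exact ⟨hx₂.neg, hx₁⟩
  · left
    have e1 : 4 • P = -P := by
      have : 4 • P = 5 • P - P := by abel
      rw [this, h5]; simp
    have e2 : 4 • (P + P) = -(P + P) := by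
      have : 4 • (P + P) = 2 • (5 • P) - (P + P) := by abel
      rw [this, h5]; simp
    rw [e1, e2]; exact ⟨hx₁.neg, hx₂.neg⟩

end Core

section Galois5

local notation "Qbar" => AlgebraicClosure ℚ

variable (W' : WeierstrassCurve.Affine ℚ)

/-- Galois permutes `{x(P), x(2P)}` when `P` generates a Galois-stable line of `E[5]`. -/
lemma S51_c_five_galois_perm
    [Finite (Submodule.torsionBy ℤ (W'⁄Qbar).Point (5 : ℕ))]
    (hcard : Nat.card (Submodule.torsionBy ℤ (W'⁄Qbar).Point (5 : ℕ)) < 5 ^ 3)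
    (N : Submodule (ZMod 5) (Submodule.torsionBy ℤ (W'⁄Qbar).Point (5 : ℕ)))
    (hN : IsGaloisStable ℚ N) (hbot : N ≠ ⊥) (htop : N ≠ ⊤)
    {P : Submodule.torsionBy ℤ (W'⁄Qbar).Point (5 : ℕ)} (hPN : P ∈ N) (hP0 : P ≠ 0)
    {x₁ x₂ : Qbar} (hx₁ : S51_c_IsX (P : (W'⁄Qbar).Point) x₁)
    (hx₂ : S51_c_IsX ((P : (W'⁄Qbar).Point) + (P : (W'⁄Qbar).Point)) x₂)
    (σ : Qbar ≃ₐ[ℚ] Qbar) :
    (σ x₁ = x₁ ∧ σ x₂ = x₂) ∨ (σ x₁ = x₂ ∧ σ x₂ = x₁) := by
  have : Fact (Nat.Prime 5) := ⟨by norm_num⟩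
  have h5 : 5 • (P : (W'⁄Qbar).Point) = 0 := by
    have := P.2
    rw [Submodule.mem_torsionBy_iff] at this
    exact_mod_cast this
  obtain ⟨k, hk, hkP⟩ := S51_c_line hcard N hbot htop hPN hP0 (hN σ P hPN)
  have hkP' : σ • (P : (W'⁄Qbar).Point) = k • (P : (W'⁄Qbar).Point) := by
    have := congrArg (Subtype.val) hkP
    rw [S51_c_coe_natCast_smul_torsionBy] at this
    exact this
  have hk0 : k ≠ 0 := by
    rintro rfl
    rw [zero_nsmul, S51_c_smul_eq_zero_iff] at hkP'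
    exact hP0 (Subtype.ext hkP')
  have hkP2 : σ • ((P : (W'⁄Qbar).Point) + (P : (W'⁄Qbar).Point)) =
      k • ((P : (W'⁄Qbar).Point) + (P : (W'⁄Qbar).Point)) := by
    rw [S51_c_smul_add, hkP', nsmul_add]
  have hσ₁ := S51_c_isX_smul σ hx₁
  have hσ₂ := S51_c_isX_smul σ hx₂
  rw [hkP'] at hσ₁
  rw [hkP2] at hσ₂
  rcases S51_c_five_isX_nsmul h5 hx₁ hx₂ hk0 hk with ⟨h1, h2⟩ | ⟨h1, h2⟩
  · exact Or.inl ⟨hσ₁.unique h1, hσ₂.unique h2⟩
  · exact Or.inr ⟨hσ₁.unique h1, hσ₂.unique h2⟩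

/-- **n = 5 core**: a Galois-stable proper nonzero submodule of `E[5]` yields rational
`s = x(P) + x(2P)`, `p = x(P) x(2P)` with `s² - 4p ≠ 0` satisfying the two doubling relations. -/
theorem S51_c_five_core
    [Finite (Submodule.torsionBy ℤ (W'⁄Qbar).Point (5 : ℕ))]
    (hcard : Nat.card (Submodule.torsionBy ℤ (W'⁄Qbar).Point (5 : ℕ)) < 5 ^ 3)
    (N : Submodule (ZMod 5) (Submodule.torsionBy ℤ (W'⁄Qbar).Point (5 : ℕ)))
    (hN : IsGaloisStable ℚ N) (hbot : N ≠ ⊥) (htop : N ≠ ⊤) :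
    ∃ s p : ℚ, s ^ 2 - 4 * p ≠ 0 ∧
      -s ^ 3 + 6 * p * s + W'.b₂ * p + W'.b₄ * s + W'.b₆ = 0 ∧
      -s ^ 4 + 8 * p * s ^ 2 - 10 * p ^ 2 + W'.b₂ * p * s + W'.b₄ * s ^ 2 + 2 * W'.b₄ * p
        + 3 * W'.b₆ * s + 2 * W'.b₈ = 0 := by
  obtain ⟨P, hPN, hP0⟩ := Submodule.exists_mem_ne_zero_of_ne_bot hbot
  have h5 : 5 • (P : (W'⁄Qbar).Point) = 0 := by
    have := P.2
    rw [Submodule.mem_torsionBy_iff] at this
    exact_mod_cast this
  have hP0' : (P : (W'⁄Qbar).Point) ≠ 0 := fun h => hP0 (Subtype.ext h)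
  obtain ⟨x₁, x₂, hx₁, hx₂, hne, hR₁, hR₂⟩ := S51_c_five_relations h5 hP0'
  have hperm := S51_c_five_galois_perm W' hcard N hN hbot htop hPN hP0 hx₁ hx₂
  obtain ⟨s, hs⟩ := S51_c_exists_rat_of_fixed (x₁ + x₂) (fun σ => by
    rcases hperm σ with ⟨h1, h2⟩ | ⟨h1, h2⟩
    · rw [map_add, h1, h2]
    · rw [map_add, h1, h2, add_comm])
  obtain ⟨p, hp⟩ := S51_c_exists_rat_of_fixed (x₁ * x₂) (fun σ => by
    rcases hperm σ with ⟨h1, h2⟩ | ⟨h1, h2⟩
    · rw [map_mul, h1, h2]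
    · rw [map_mul, h1, h2, mul_comm])
  have hinj : Function.Injective (algebraMap ℚ Qbar) := (algebraMap ℚ Qbar).injective
  have hb₂ : (W'⁄Qbar).b₂ = algebraMap ℚ Qbar W'.b₂ := by simp [WeierstrassCurve.baseChange]
  have hb₄ : (W'⁄Qbar).b₄ = algebraMap ℚ Qbar W'.b₄ := by simp [WeierstrassCurve.baseChange]
  have hb₆ : (W'⁄Qbar).b₆ = algebraMap ℚ Qbar W'.b₆ := by simp [WeierstrassCurve.baseChange]
  have hb₈ : (W'⁄Qbar).b₈ = algebraMap ℚ Qbar W'.b₈ := by simp [WeierstrassCurve.baseChange]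
  simp only [Ψ₂Sq, Φ_two, eval_add, eval_sub, eval_mul, eval_pow, eval_C, eval_X,
    hb₂, hb₄, hb₆, hb₈] at hR₁ hR₂
  have hd : x₁ - x₂ ≠ 0 := sub_ne_zero.mpr hne
  refine ⟨s, p, ?_, ?_, ?_⟩
  · intro h
    apply hd
    have h' := congrArg (algebraMap ℚ Qbar) h
    simp only [map_sub, map_pow, map_mul, map_ofNat, hs, hp, _root_.map_zero] at h'
    have : (x₁ - x₂) ^ 2 = 0 := by linear_combination h'
    exact pow_eq_zero_iff (two_ne_zero) |>.mp this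
  · apply hinj
    simp only [map_add, map_neg, map_pow, map_mul, map_ofNat, hs, hp, _root_.map_zero]
    apply mul_left_cancel₀ hd
    linear_combination hR₁ - hR₂
  · apply hinj
    simp only [map_add, map_neg, map_sub, map_pow, map_mul, map_ofNat, hs, hp, _root_.map_zero]
    linear_combination hR₁ + hR₂

end Galois5

end Fermat.Agent.S51
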