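/-
S51 part A (helper12): final n = 5 assembly `S51_A5`.
Uses helper26's `TorsCard` (Finite / card ≤ 25 / Nontrivial for `E[5]`) and `S51_c_five_core`.
-/
import Fermat.Agent.S51.Tors5Core
import Fermat.Agent.S51.TorsCard
import Fermat.Prelude.Def_FLTPrelim_ModularRep

set_option autoImplicit false

open WeierstrassCurve Polynomial
open WeierstrassCurve.Affine WeierstrassCurve.Affine.Point

namespace Fermat.Agent.S51

local notation "Qbar" => AlgebraicClosure ℚ

lemma S51_c_Δ_baseChange_ne_zero (W : WeierstrassCurve ℤ) (hΔ : W.Δ ≠ 0) :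
    ((W.map (Int.castRingHom ℚ)).toAffine⁄Qbar).Δ ≠ 0 := by
  have h1 : (W.map (Int.castRingHom ℚ)).Δ ≠ 0 := by
    rw [WeierstrassCurve.map_Δ]
    simpa using hΔ
  change ((W.map (Int.castRingHom ℚ)).map (algebraMap ℚ Qbar)).Δ ≠ 0
  rw [WeierstrassCurve.map_Δ]
  exact fun h => h1 ((algebraMap ℚ Qbar).injective (by simpa using h))

/-- **S51, part A, n = 5.** If the mod-5 representation is not irreducible, there are rational
`s = x(P) + x(2P)`, `p = x(P) x(2P)` (for a generator `P` of a Galois-stable line in `E[5]`)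
satisfying the two doubling relations. -/
theorem S51_A5 (W : WeierstrassCurve ℤ) (hΔ : W.Δ ≠ 0) (h : ¬ W.ModRepIsIrreducible 5) :
    ∃ s p : ℚ, s ^ 2 - 4 * p ≠ 0 ∧
      -s ^ 3 + 6 * p * s + (W.map (Int.castRingHom ℚ)).b₂ * p + (W.map (Int.castRingHom ℚ)).b₄ * s
        + (W.map (Int.castRingHom ℚ)).b₆ = 0 ∧
      -s ^ 4 + 8 * p * s ^ 2 - 10 * p ^ 2 + (W.map (Int.castRingHom ℚ)).b₂ * p * s
        + (W.map (Int.castRingHom ℚ)).b₄ * s ^ 2 + 2 * (W.map (Int.castRingHom ℚ)).b₄ * p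
        + 3 * (W.map (Int.castRingHom ℚ)).b₆ * s + 2 * (W.map (Int.castRingHom ℚ)).b₈ = 0 := by
  have hΔ' := S51_c_Δ_baseChange_ne_zero W hΔ
  have h2 : (2 : Qbar) ≠ 0 := two_ne_zero
  have h5 : (5 : Qbar) ≠ 0 := by norm_num
  have hfin := S51_torsionBy_five_finite ((W.map (Int.castRingHom ℚ)).toAffine⁄Qbar) h5
  have hcard := S51_torsionBy_five_card ((W.map (Int.castRingHom ℚ)).toAffine⁄Qbar) h5
  have hnt := S51_torsionBy_five_nontrivial ((W.map (Int.castRingHom ℚ)).toAffine⁄Qbar) hΔ' h2 h5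
  unfold WeierstrassCurve.ModRepIsIrreducible GaloisRepIsIrreducible at h
  rw [not_and_or] at h
  rcases h with h | h
  · exact absurd hnt h
  · push Not at h
    obtain ⟨N, hN, hbot, htop⟩ := h
    exact S51_c_five_core (W.map (Int.castRingHom ℚ)).toAffine
      (lt_of_le_of_lt hcard (by norm_num)) N hN hbot htop

end Fermat.Agent.S51
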