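import Mathlib.AlgebraicGeometry.EllipticCurve.DivisionPolynomial.Degree
import Mathlib.AlgebraicGeometry.EllipticCurve.Affine.Point
import Mathlib.Tactic.LinearCombination
import Mathlib.Tactic.FieldSimp

/-!
# S51, part A, n = 5 algebra (helper16)

`x`-coordinate doubling on a Weierstrass curve, the relation between `5`-torsion points and the
roots of the fifth division polynomial `preΨ' 5`, nontriviality of `E[5]` and `#E[5] ≤ 25`.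
All names are prefixed by `S51_t5_`.
-/

set_option autoImplicit false

open Polynomial WeierstrassCurve WeierstrassCurve.Affine WeierstrassCurve.Affine.Point

section S51_t5

variable {F : Type*} [Field F] (W : WeierstrassCurve F)

/-- value of `Ψ₂Sq` at `x` -/
def S51_t5_B (x : F) : F := 4 * x ^ 3 + W.b₂ * x ^ 2 + 2 * W.b₄ * x + W.b₆

/-- value of `Φ₂` at `x` -/
def S51_t5_A (x : F) : F := x ^ 4 - W.b₄ * x ^ 2 - 2 * W.b₆ * x - W.b₈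

/-- value of `Ψ₃` at `x` -/
def S51_t5_P3 (x : F) : F := 3 * x ^ 4 + W.b₂ * x ^ 3 + 3 * W.b₄ * x ^ 2 + 3 * W.b₆ * x + W.b₈

/-- value of `preΨ₄` at `x` -/
def S51_t5_P4 (x : F) : F :=
  2 * x ^ 6 + W.b₂ * x ^ 5 + 5 * W.b₄ * x ^ 4 + 10 * W.b₆ * x ^ 3 + 10 * W.b₈ * x ^ 2 +
    (W.b₂ * W.b₈ - W.b₄ * W.b₆) * x + (W.b₄ * W.b₈ - W.b₆ ^ 2)

/-- value of `Ψ₅ = preΨ' 5` at `x` -/
def S51_t5_P5 (x : F) : F := S51_t5_P4 W x * S51_t5_B W x ^ 2 - S51_t5_P3 W x ^ 3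

lemma S51_t5_eval_Ψ₂Sq (x : F) : W.Ψ₂Sq.eval x = S51_t5_B W x := by
  simp [Ψ₂Sq, S51_t5_B]

lemma S51_t5_eval_Ψ₃ (x : F) : W.Ψ₃.eval x = S51_t5_P3 W x := by
  simp [Ψ₃, S51_t5_P3]

lemma S51_t5_eval_preΨ₄ (x : F) : W.preΨ₄.eval x = S51_t5_P4 W x := by
  simp [preΨ₄, S51_t5_P4]

lemma S51_t5_preΨ'_five : W.preΨ' 5 = W.preΨ₄ * W.Ψ₂Sq ^ 2 - W.Ψ₃ ^ 3 := by
  have h := W.preΨ'_odd 0
  simpa using h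

lemma S51_t5_eval_preΨ'_five (x : F) : (W.preΨ' 5).eval x = S51_t5_P5 W x := by
  rw [S51_t5_preΨ'_five]
  simp [S51_t5_P5, S51_t5_eval_Ψ₂Sq, S51_t5_eval_Ψ₃, S51_t5_eval_preΨ₄]

/-- `Φ₂ = X Ψ₂Sq - Ψ₃`. -/
lemma S51_t5_A_eq (x : F) : S51_t5_A W x = x * S51_t5_B W x - S51_t5_P3 W x := by
  simp only [S51_t5_A, S51_t5_B, S51_t5_P3]
  ring

/-- identity I2 -/
lemma S51_t5_I2 (x : F) :
    4 * S51_t5_A W x ^ 3 + W.b₂ * S51_t5_A W x ^ 2 * S51_t5_B W x +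
      2 * W.b₄ * S51_t5_A W x * S51_t5_B W x ^ 2 + W.b₆ * S51_t5_B W x ^ 3 =
    S51_t5_P4 W x ^ 2 := by
  have rel := W.b_relation
  simp only [S51_t5_A, S51_t5_B, S51_t5_P4]
  linear_combination (-13*x^8 - 8*x^7*W.b₂ - x^6*W.b₂^2 - 28*x^6*W.b₄ - 6*x^5*W.b₂*W.b₄ - 38*x^5*W.b₆ - 7*x^4*W.b₂*W.b₆ - 8*x^4*W.b₄^2 - 22*x^4*W.b₈ - 4*x^3*W.b₂*W.b₈ - 16*x^3*W.b₄*W.b₆ - 8*x^2*W.b₄*W.b₈ - 7*x^2*W.b₆^2 - 6*x*W.b₆*W.b₈ - W.b₈^2) * rel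

/-- identity I3: `Φ₄ = X Ψ₄² - Ψ₃ Ψ₅` in terms of `A = Φ₂`, `B = Ψ₂Sq`. -/
lemma S51_t5_I3 (x : F) :
    S51_t5_A W x ^ 4 - W.b₄ * S51_t5_A W x ^ 2 * S51_t5_B W x ^ 2 -
      2 * W.b₆ * S51_t5_A W x * S51_t5_B W x ^ 3 - W.b₈ * S51_t5_B W x ^ 4 -
      x * S51_t5_B W x * S51_t5_P4 W x ^ 2 =
    - (S51_t5_P3 W x * S51_t5_P5 W x) := by
  have rel := W.b_relation
  simp only [S51_t5_A, S51_t5_B, S51_t5_P4, S51_t5_P3, S51_t5_P5]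
  linear_combination (-4*x^12 - 5*x^11*W.b₂ - x^10*W.b₂^2 - 42*x^10*W.b₄ - 16*x^9*W.b₂*W.b₄ - 93*x^9*W.b₆ - x^8*W.b₂^2*W.b₄ - 36*x^8*W.b₂*W.b₆ - 28*x^8*W.b₄^2 - 72*x^8*W.b₈ - 3*x^7*W.b₂^2*W.b₆ - 4*x^7*W.b₂*W.b₄^2 - 30*x^7*W.b₂*W.b₈ - 84*x^7*W.b₄*W.b₆ - 3*x^6*W.b₂^2*W.b₈ - 14*x^6*W.b₂*W.b₄*W.b₆ - 4*x^6*W.b₄^3 - 60*x^6*W.b₄*W.b₈ - 39*x^6*W.b₆^2 - 12*x^5*W.b₂*W.b₄*W.b₈ - 7*x^5*W.b₂*W.b₆^2 - 16*x^5*W.b₄^2*W.b₆ - 38*x^5*W.b₆*W.b₈ - 8*x^4*W.b₂*W.b₆*W.b₈ - 12*x^4*W.b₄^2*W.b₈ - 15*x^4*W.b₄*W.b₆^2 - 4*x^4*W.b₈^2 - x^3*W.b₂*W.b₈^2 - 16*x^3*W.b₄*W.b₆*W.b₈ - 4*x^3*W.b₆^3 - 2*x^2*W.b₄*W.b₈^2 - 5*x^2*W.b₆^2*W.b₈ - x*W.b₆*W.b₈^2) * rel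

/-- value of the derivative of `Ψ₂Sq` at `x` -/
def S51_t5_B' (x : F) : F := 12 * x ^ 2 + 2 * W.b₂ * x + 2 * W.b₄

/-- identity I4: `16 Ψ₃ = 2 Ψ₂Sq Ψ₂Sq'' - (Ψ₂Sq')²`. -/
lemma S51_t5_I4 (x : F) :
    16 * S51_t5_P3 W x = 2 * S51_t5_B W x * (24 * x + 2 * W.b₂) - S51_t5_B' W x ^ 2 := by
  have rel := W.b_relation
  simp only [S51_t5_B, S51_t5_B', S51_t5_P3]
  linear_combination 4 * rel

/-- identity I5: the discriminant of `Ψ₂Sq` is `16 Δ` (Bezout form). -/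
lemma S51_t5_I5 (x : F) :
    (96*x*W.b₂^2 - 2304*x*W.b₄ + 16*W.b₂^3 - 480*W.b₂*W.b₄ + 1728*W.b₆) * S51_t5_B W x +
      (-32*x^2*W.b₂^2 + 768*x^2*W.b₄ - 8*x*W.b₂^3 + 224*x*W.b₂*W.b₄ - 576*x*W.b₆ - 8*W.b₂^2*W.b₄
        - 48*W.b₂*W.b₆ + 256*W.b₄^2) * S51_t5_B' W x = -64 * W.Δ := by
  have rel := W.b_relation
  simp only [S51_t5_B, S51_t5_B', WeierstrassCurve.Δ]
  linear_combination (-16 * W.b₂^2) * rel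

/-- If `Δ ≠ 0` (and `2 ≠ 0`), `Ψ₂Sq` and `Ψ₃` have no common root. -/
lemma S51_t5_B_ne_zero_of_P3 [CharZero F] (hΔ : W.Δ ≠ 0) {x : F} (h3 : S51_t5_P3 W x = 0) :
    S51_t5_B W x ≠ 0 := by
  intro hB
  have h4 := S51_t5_I4 W x
  rw [h3, hB] at h4
  have hB' : S51_t5_B' W x = 0 := by
    have : S51_t5_B' W x ^ 2 = 0 := by linear_combination h4
    exact pow_eq_zero_iff (two_ne_zero) |>.mp this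
  have h5 := S51_t5_I5 W x
  rw [hB, hB'] at h5
  apply hΔ
  have : (64 : F) * W.Δ = 0 := by linear_combination h5
  rcases mul_eq_zero.mp this with h | h
  · norm_num at h
  · exact h

/-- Pure algebra: if `x₂ B = A` then `B³ Ψ₂Sq(x₂) = Ψ₄(x)²`. -/
lemma S51_t5_B_double {x x₂ : F} (h : x₂ * S51_t5_B W x = S51_t5_A W x) :
    S51_t5_B W x ^ 3 * S51_t5_B W x₂ = S51_t5_P4 W x ^ 2 := by
  rw [← S51_t5_I2 W x, ← h]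
  simp only [S51_t5_B]
  ring

/-- Pure algebra: if `x₂ B = A` then `B⁴ (Φ₂(x₂) - x Ψ₂Sq(x₂)) = - Ψ₃(x) Ψ₅(x)`. -/
lemma S51_t5_quad {x x₂ : F} (h : x₂ * S51_t5_B W x = S51_t5_A W x) :
    S51_t5_B W x ^ 4 * (S51_t5_A W x₂ - x * S51_t5_B W x₂) =
      - (S51_t5_P3 W x * S51_t5_P5 W x) := by
  rw [← S51_t5_I3 W x, ← S51_t5_B_double W h, ← h]
  simp only [S51_t5_A, S51_t5_B]
  ring

end S51_t5
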