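import Fermat.Agent.S51.Tors5Alg

/-!
# S51, part A, n = 5: points (helper16)
-/

set_option autoImplicit false
set_option linter.unusedSectionVars false

open Polynomial WeierstrassCurve WeierstrassCurve.Affine WeierstrassCurve.Affine.Point

section S51_t5

variable {F : Type*} [Field F] [DecidableEq F] (W : WeierstrassCurve F)

/-- `P` is an affine point with `x`-coordinate `x`. -/
def S51_t5_HasX (P : W.toAffine.Point) (x : F) : Prop :=
  ∃ (y : F) (h : W.toAffine.Nonsingular x y), P = Point.some x y h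

variable {W}

lemma S51_t5_HasX.ne_zero {P : W.toAffine.Point} {x : F} (h : S51_t5_HasX W P x) : P ≠ 0 := by
  obtain ⟨y, hn, rfl⟩ := h
  exact Point.some_ne_zero hn

lemma S51_t5_exists_hasX {P : W.toAffine.Point} (h : P ≠ 0) : ∃ x, S51_t5_HasX W P x := by
  rcases P with _ | ⟨x, y, hn⟩
  · exact absurd rfl h
  · exact ⟨x, y, hn, rfl⟩

lemma S51_t5_HasX.unique {P : W.toAffine.Point} {x x' : F} (h : S51_t5_HasX W P x)
    (h' : S51_t5_HasX W P x') : x = x' := by
  obtain ⟨y, hn, rfl⟩ := h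
  obtain ⟨y', hn', h2⟩ := h'
  simp only [Point.some.injEq] at h2
  exact h2.1

lemma S51_t5_HasX.neg {P : W.toAffine.Point} {x : F} (h : S51_t5_HasX W P x) :
    S51_t5_HasX W (-P) x := by
  obtain ⟨y, hn, rfl⟩ := h
  exact ⟨_, _, Point.neg_some hn⟩

lemma S51_t5_HasX.eq_or_eq_neg {P Q : W.toAffine.Point} {x : F} (h : S51_t5_HasX W P x)
    (h' : S51_t5_HasX W Q x) : Q = P ∨ Q = -P := by
  obtain ⟨y, hn, rfl⟩ := h
  obtain ⟨y', hn', rfl⟩ := h'
  exact Point.X_eq_iff.mp rfl

/-- `(2y + a₁x + a₃)² = Ψ₂Sq(x)` on the curve. -/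
lemma S51_t5_psi_sq {x y : F} (h : W.toAffine.Equation x y) :
    (y - W.toAffine.negY x y) ^ 2 = S51_t5_B W x := by
  rw [Affine.equation_iff] at h
  simp only [Affine.negY, S51_t5_B, WeierstrassCurve.b₂, WeierstrassCurve.b₄, WeierstrassCurve.b₆]
  linear_combination 4 * h

lemma S51_t5_B_eq_zero_iff {x y : F} (h : W.toAffine.Equation x y) :
    S51_t5_B W x = 0 ↔ y = W.toAffine.negY x y := by
  rw [← S51_t5_psi_sq h, sq_eq_zero_iff, sub_eq_zero]

/-- doubling: the `x`-coordinate of `2P`. -/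
lemma S51_t5_HasX.two_nsmul {P : W.toAffine.Point} {x : F} (h : S51_t5_HasX W P x)
    (hB : S51_t5_B W x ≠ 0) :
    S51_t5_HasX W (P + P) (S51_t5_A W x / S51_t5_B W x) := by
  obtain ⟨y, hn, rfl⟩ := h
  have hy : y ≠ W.toAffine.negY x y := fun hy => hB ((S51_t5_B_eq_zero_iff hn.1).mpr hy)
  have hx : W.toAffine.addX x x (W.toAffine.slope x x y y) = S51_t5_A W x / S51_t5_B W x := by
    rw [eq_div_iff hB, ← S51_t5_psi_sq hn.1, Affine.slope_of_Y_ne rfl hy]
    have hy' : y - W.toAffine.negY x y ≠ 0 := sub_ne_zero.mpr hy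
    have heq := (Affine.equation_iff _ _).mp hn.1
    simp only [Affine.addX, S51_t5_A, WeierstrassCurve.b₄, WeierstrassCurve.b₆,
      WeierstrassCurve.b₈]
    field_simp
    simp only [Affine.negY]
    linear_combination (-8 * x - W.a₁ ^ 2 - 4 * W.a₂) * heq
  rw [Point.add_self_of_Y_ne hy, ← hx]
  exact ⟨_, _, rfl⟩

lemma S51_t5_HasX.two_nsmul_eq_zero_iff {P : W.toAffine.Point} {x : F} (h : S51_t5_HasX W P x) :
    P + P = 0 ↔ S51_t5_B W x = 0 := by
  obtain ⟨y, hn, rfl⟩ := h
  rw [S51_t5_B_eq_zero_iff hn.1]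
  constructor
  · intro h0
    by_contra hy
    rw [Point.add_self_of_Y_ne hy] at h0
    exact Point.some_ne_zero _ h0
  · intro hy
    exact Point.add_self_of_Y_eq hy

/-- (a): the `x`-coordinate of a nonzero `5`-torsion point is a root of `Ψ₅`. -/
theorem S51_t5_P5_eq_zero_of_five_nsmul {P : W.toAffine.Point} {x : F} (hx : S51_t5_HasX W P x)
    (h5 : 5 • P = 0) : S51_t5_P5 W x = 0 := by
  have hP0 : P ≠ 0 := hx.ne_zero
  have h2 : P + P ≠ 0 := by
    intro h
    apply hP0
    have : 5 • P = P + ((P + P) + (P + P)) := by abel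
    rw [this, h, add_zero, add_zero] at h5
    exact h5
  have hB : S51_t5_B W x ≠ 0 := fun hB => h2 (hx.two_nsmul_eq_zero_iff.mpr hB)
  have hx2 := hx.two_nsmul hB
  have h4 : (P + P) + (P + P) ≠ 0 := by
    intro h
    apply hP0
    have : 5 • P = P + ((P + P) + (P + P)) := by abel
    rw [this, h, add_zero] at h5
    exact h5
  have hB2 : S51_t5_B W (S51_t5_A W x / S51_t5_B W x) ≠ 0 :=
    fun hB2 => h4 (hx2.two_nsmul_eq_zero_iff.mpr hB2)
  have hx4 := hx2.two_nsmul hB2
  have h4' : (P + P) + (P + P) = -P := by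
    have : 5 • P = P + ((P + P) + (P + P)) := by abel
    rw [this] at h5
    exact (neg_eq_of_add_eq_zero_right h5).symm
  have e : S51_t5_A W (S51_t5_A W x / S51_t5_B W x) / S51_t5_B W (S51_t5_A W x / S51_t5_B W x) = x :=
    hx4.unique (h4' ▸ hx.neg)
  have hq := S51_t5_quad W (x := x) (x₂ := S51_t5_A W x / S51_t5_B W x) (div_mul_cancel₀ _ hB)
  rw [div_eq_iff hB2] at e
  rw [e, sub_self, mul_zero] at hq
  have hq' : S51_t5_P3 W x * S51_t5_P5 W x = 0 := by linear_combination hq
  rcases mul_eq_zero.mp hq' with h3 | h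
  · exfalso
    have hA : S51_t5_A W x = x * S51_t5_B W x := by rw [S51_t5_A_eq, h3, sub_zero]
    have hx2' : S51_t5_HasX W (P + P) x := by
      have : S51_t5_A W x / S51_t5_B W x = x := by rw [hA, mul_div_cancel_right₀ _ hB]
      rw [this] at hx2; exact hx2
    rcases hx.eq_or_eq_neg hx2' with h | h
    · exact hP0 (by simpa using h)
    · apply hP0
      have h3P : 3 • P = 0 := by
        have : 3 • P = (P + P) + P := by abel
        rw [this, h, neg_add_cancel]
      have : P = 2 • (3 • P) - 5 • P := by abel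
      rw [this, h3P, h5]; simp
  · exact h

/-- (b): a point whose `x`-coordinate is a root of `Ψ₅` is `5`-torsion. -/
theorem S51_t5_five_nsmul_eq_zero [CharZero F] (hΔ : W.Δ ≠ 0) {P : W.toAffine.Point} {x : F}
    (hx : S51_t5_HasX W P x) (h5 : S51_t5_P5 W x = 0) : 5 • P = 0 := by
  have hP3 : S51_t5_P4 W x * S51_t5_B W x ^ 2 = S51_t5_P3 W x ^ 3 := by
    rw [S51_t5_P5] at h5; linear_combination h5
  have hB : S51_t5_B W x ≠ 0 := by
    intro hB
    rw [hB] at hP3
    have h3 : S51_t5_P3 W x = 0 := by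
      have : S51_t5_P3 W x ^ 3 = 0 := by rw [← hP3]; ring
      exact pow_eq_zero_iff (by norm_num) |>.mp this
    exact S51_t5_B_ne_zero_of_P3 W hΔ h3 hB
  have hx2 := hx.two_nsmul hB
  have hmul : S51_t5_A W x / S51_t5_B W x * S51_t5_B W x = S51_t5_A W x := div_mul_cancel₀ _ hB
  have hdbl := S51_t5_B_double W hmul
  -- `Ψ₃(x) = 0` is impossible
  have h3ne : S51_t5_P3 W x ≠ 0 := by
    intro h3
    have h4 : S51_t5_P4 W x = 0 := by
      rw [h3] at hP3
      have : S51_t5_P4 W x * S51_t5_B W x ^ 2 = 0 := by rw [hP3]; ring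
      rcases mul_eq_zero.mp this with h | h
      · exact h
      · exact absurd (pow_eq_zero_iff (by norm_num) |>.mp h) hB
    have hA : S51_t5_A W x = x * S51_t5_B W x := by rw [S51_t5_A_eq, h3, sub_zero]
    have hxx : S51_t5_A W x / S51_t5_B W x = x := by rw [hA, mul_div_cancel_right₀ _ hB]
    rw [hxx, h4] at hdbl
    have : S51_t5_B W x ^ 4 = 0 := by linear_combination hdbl
    exact hB (pow_eq_zero_iff (by norm_num) |>.mp this)
  have h4ne : S51_t5_P4 W x ≠ 0 := by
    intro h4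
    rw [h4, zero_mul] at hP3
    exact h3ne (pow_eq_zero_iff (by norm_num) |>.mp hP3.symm)
  have hB2 : S51_t5_B W (S51_t5_A W x / S51_t5_B W x) ≠ 0 := by
    intro hB2
    rw [hB2, mul_zero] at hdbl
    exact h4ne (pow_eq_zero_iff (by norm_num) |>.mp hdbl.symm)
  have hx4 := hx2.two_nsmul hB2
  have hq := S51_t5_quad W hmul
  rw [h5, mul_zero, _root_.neg_zero] at hq
  have hAB : S51_t5_A W (S51_t5_A W x / S51_t5_B W x) =
      x * S51_t5_B W (S51_t5_A W x / S51_t5_B W x) := by
    rcases mul_eq_zero.mp hq with h | h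
    · exact absurd (pow_eq_zero_iff (by norm_num) |>.mp h) hB
    · exact sub_eq_zero.mp h
  rw [hAB, mul_div_cancel_right₀ _ hB2] at hx4
  have h5P : 5 • P = P + ((P + P) + (P + P)) := by abel
  rcases hx.eq_or_eq_neg hx4 with h | h
  · exfalso
    have h3P : P + P = -P := by
      have h' : P + P + P = 0 := by
        have e : P + P + P = (P + P) + (P + P) - P := by abel
        rw [e, h, sub_self]
      exact (neg_eq_of_add_eq_zero_left h').symm
    have hx2' : S51_t5_HasX W (P + P) x := h3P ▸ hx.neg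
    have hxx := hx2.unique hx2'
    have hA : S51_t5_A W x = x * S51_t5_B W x := by
      rw [div_eq_iff hB] at hxx; exact hxx
    apply h3ne
    rw [S51_t5_A_eq] at hA
    linear_combination -hA
  · rw [h5P, h, add_neg_cancel]

end S51_t5
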